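import Fermat.Agent.H83.SS2.ExhaustCount

/-!
# P-SS2 row 899 (SS2-C2 VAL3), abstract part 4 (helper83): EXHAUST

Mathlib only.  `K ⊆ L` a finite separable extension, `O` a discrete valuation subring of `K` with
uniformiser `π`, `W i` (`i : Fin r`) pairwise distinct valuation subrings of `L` above `O` with
elementwise lower bounds `e i`, `f i` for the ramification indices and the residue degrees:

* `π / t i ^ e i ∈ W i` with `t i ∈ 𝔪_{W i}`, `t i ≠ 0`;
* `b i j ∈ W i` (`j : Fin (f i)`) with residues linearly independent over the residue field of `O`.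

If `[L : K] ≤ ∑ e i * f i`, then (`exhaust`)

1. every valuation subring of `L` above `O` is one of the `W i`;
2. every element of `⋂ W i` is integral over `O`;
3. `t i` is a uniformiser of `W i` and `π / t i ^ e i` is a unit of `W i`;
4. the residues of the `b i j` span the residue field of `W i` over that of `O`.
-/

set_option autoImplicit false
set_option linter.unusedSectionVars false
set_option linter.style.haveILetI false

noncomputable section

namespace Fermat.Agent.H83.SS2

open IsDedekindDomain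

attribute [local instance] isDedekindDomain_closure isFractionRing_closure finite_closure

section Exhaust

variable {K L : Type*} [Field K] [Field L] [Algebra K L] [FiniteDimensional K L]
  [Algebra.IsSeparable K L] {O : ValuationSubring K} [IsPrincipalIdealRing O]
  {π : K} (hπ0 : π ≠ 0) (hπ : π ∈ O.nonunits) (hπu : ∀ y ∈ O.nonunits, y / π ∈ O)

include hπ0 hπ in
/-- Every height one prime of `B` lies over the maximal ideal of `O`. -/
theorem liesOver_of_heightOneSpectrum (v : HeightOneSpectrum (integralClosure O L)) :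
    v.asIdeal.LiesOver (IsLocalRing.maximalIdeal O) := by
  haveI : Algebra.IsIntegral O (integralClosure O L) :=
    IsIntegralClosure.isIntegral_algebra O L
  haveI : Nontrivial O := inferInstance
  have hne : v.asIdeal.under O ≠ ⊥ := by
    rw [Ideal.under_def]
    exact Ideal.IsIntegral.comap_ne_bot O v.ne_bot
  haveI : v.asIdeal.IsPrime := v.isPrime
  have hprime : (v.asIdeal.under O).IsPrime := inferInstance
  have hmax : (v.asIdeal.under O).IsMaximal := hprime.isMaximal hne
  exact ⟨(IsLocalRing.eq_maximalIdeal hmax).symm⟩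

include hπ0 hπ hπu in
/-- **EXHAUST**. -/
theorem exhaust {r : ℕ} (W : Fin r → ValuationSubring L) (e f : Fin r → ℕ)
    (hW : Function.Injective W) (hWO : ∀ i, (W i).comap (algebraMap K L) = O)
    (t : Fin r → L) (ht : ∀ i, t i ∈ (W i).nonunits) (ht0 : ∀ i, t i ≠ 0)
    (hu : ∀ i, algebraMap K L π / t i ^ e i ∈ W i)
    (b : ∀ i, Fin (f i) → L) (hb : ∀ i j, b i j ∈ W i)
    (hind : ∀ i (c : Fin (f i) → K), (∀ j, c j ∈ O) →
      (∑ j, algebraMap K L (c j) * b i j) ∈ (W i).nonunits → ∀ j, c j ∈ O.nonunits)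
    (hsum : Module.finrank K L ≤ ∑ i, e i * f i) :
    (∀ V : ValuationSubring L, V.comap (algebraMap K L) = O → ∃ i, V = W i) ∧
    (∀ z : L, (∀ i, z ∈ W i) → IsIntegral O z) ∧
    (∀ i, (∀ y ∈ (W i).nonunits, y / t i ∈ W i) ∧
      (algebraMap K L π / t i ^ e i)⁻¹ ∈ W i) ∧
    (∀ i, ∀ z ∈ W i, ∃ c : Fin (f i) → K, (∀ j, c j ∈ O) ∧
      z - ∑ j, algebraMap K L (c j) * b i j ∈ (W i).nonunits) := by
  have he : ∀ i, e i ≤ (center O (W i) (hWO i)).ramificationIdx O := fun i =>
    le_ramificationIdx_center hπ0 hπ hπu (hWO i) (ht i) (ht0 i) (hu i)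
  have hf : ∀ i, f i ≤ (center O (W i) (hWO i)).inertiaDeg O := fun i =>
    le_inertiaDeg_center hπ0 hπ (hWO i) (b i) (hb i) (hind i)
  obtain ⟨hall, hexact⟩ := count_main hπ0 hπ W e f hW hWO he hf hsum
  refine ⟨?_, ?_, ?_, ?_⟩
  · intro V hV
    obtain ⟨i, hi⟩ := hall (center O V hV) (center_isPrime hV) (center_liesOver hV)
    exact ⟨i, eq_of_center_eq hV (hWO i) hπ0 hπ hi⟩
  · intro z hz
    have hval : ∀ v : HeightOneSpectrum (integralClosure O L), v.valuation L z ≤ 1 := by
      intro v
      obtain ⟨i, hi⟩ := hall v.asIdeal v.isPrime (liesOver_of_heightOneSpectrum hπ0 hπ v)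
      have hv : v = centerSpec (hWO i) hπ0 hπ := HeightOneSpectrum.ext hi
      rw [hv]
      exact valuation_le_one_of_mem (hWO i) hπ0 hπ (hz i)
    obtain ⟨s, hs⟩ := HeightOneSpectrum.mem_integers_of_valuation_le_one L z hval
    rw [← hs]
    exact s.2
  · intro i
    have hei := (hexact i).1
    have hval := valuation_uniformiser hπ0 hπ hπu (hWO i)
    rw [← hei] at hval
    set v := (centerSpec (hWO i) hπ0 hπ).valuation L with hv
    have hvt : v (t i) ≤ WithZero.exp (-1 : ℤ) :=
      zm0_le_exp_neg_one_of_lt_one ((mem_nonunits_iff_valuation_lt_one (hWO i) hπ0 hπ _).1 (ht i))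
    have hvu : v (algebraMap K L π / t i ^ e i) ≤ 1 :=
      valuation_le_one_of_mem (hWO i) hπ0 hπ (hu i)
    have hπeq : algebraMap K L π = algebraMap K L π / t i ^ e i * t i ^ e i := by
      rw [div_mul_cancel₀ _ (pow_ne_zero _ (ht0 i))]
    have hprod : v (algebraMap K L π / t i ^ e i) * v (t i) ^ e i
        = WithZero.exp (-(e i : ℤ)) := by
      rw [← hval, ← map_pow, ← map_mul, ← hπeq]
    have ht0' : v (t i) ≠ 0 := (Valuation.ne_zero_iff _).2 (ht0 i)
    have hu0 : v (algebraMap K L π / t i ^ e i) ≠ 0 := by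
      intro h0
      rw [h0, zero_mul] at hprod
      exact WithZero.exp_ne_zero hprod.symm
    obtain ⟨α, hα⟩ : ∃ α : ℤ, v (algebraMap K L π / t i ^ e i) = WithZero.exp α :=
      ⟨WithZero.log _, (WithZero.exp_log hu0).symm⟩
    obtain ⟨γ, hγ⟩ : ∃ γ : ℤ, v (t i) = WithZero.exp γ :=
      ⟨WithZero.log _, (WithZero.exp_log ht0').symm⟩
    rw [hα, hγ, ← WithZero.exp_nsmul, ← WithZero.exp_add] at hprod
    have hlin : α + (e i : ℤ) * γ = -(e i : ℤ) := by
      have := WithZero.exp_injective hprod
      simpa using this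
    rw [hγ, WithZero.exp_le_exp] at hvt
    rw [hα, ← WithZero.exp_zero, WithZero.exp_le_exp] at hvu
    have hepos : 0 < e i := by
      haveI := center_isPrime (hWO i)
      have := Ideal.ramificationIdx_pos (center O (W i) (hWO i)) O
      omega
    have hα0 : α = 0 := by nlinarith
    have hγ1 : γ = -1 := by
      have h1 : (e i : ℤ) * (γ + 1) = 0 := by
        rw [hα0] at hlin
        linarith
      rcases mul_eq_zero.1 h1 with h2 | h2
      · omega
      · omega
    constructor
    · intro y hy
      apply mem_of_valuation_le_one (hWO i) hπ0 hπ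
      have hvy := zm0_le_exp_neg_one_of_lt_one
        ((mem_nonunits_iff_valuation_lt_one (hWO i) hπ0 hπ _).1 hy)
      rw [map_div₀]
      show v y / v (t i) ≤ 1
      rw [hγ, hγ1, div_le_one₀ (WithZero.exp_pos)]
      exact hvy
    · apply mem_of_valuation_le_one (hWO i) hπ0 hπ
      rw [map_inv₀]
      show (v (algebraMap K L π / t i ^ e i))⁻¹ ≤ 1
      rw [hα, hα0, WithZero.exp_zero, inv_one]
  · intro i z hz
    exact exists_residue_combination hπ0 hπ (hWO i) (b i) (hb i) (hind i) (hexact i).2 hz

end Exhaust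

end Fermat.Agent.H83.SS2
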