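import Fermat.Agent.H83.SS2.ExhaustRam

/-!
# P-SS2 row 899 (SS2-C2 VAL3): a valuation subring above a discrete valuation ring is a discrete
valuation ring (helper83)

Mathlib only.  `K ⊆ L` finite separable, `O` a discrete valuation subring of `K`, `V` a valuation
subring of `L` with `V.comap (algebraMap K L) = O`.  Then `V` is a discrete valuation ring.
-/

set_option autoImplicit false
set_option linter.unusedSectionVars false
set_option linter.style.haveILetI false

noncomputable section

namespace Fermat.Agent.H83.SS2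

open IsDedekindDomain

attribute [local instance] isDedekindDomain_closure isFractionRing_closure finite_closure

section Above

variable {K L : Type*} [Field K] [Field L] [Algebra K L] [FiniteDimensional K L]
  [Algebra.IsSeparable K L] {O : ValuationSubring K} [IsPrincipalIdealRing O]
  {π : K} (hπ0 : π ≠ 0) (hπ : π ∈ O.nonunits)

include hπ0 hπ in
theorem isPrincipalIdealRing_of_above {V : ValuationSubring L}
    (hV : V.comap (algebraMap K L) = O) : IsPrincipalIdealRing V := by
  classical
  refine ⟨fun I => ?_⟩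
  by_cases hI : I = ⊥
  · rw [hI]
    exact bot_isPrincipal
  set v := (centerSpec hV hπ0 hπ).valuation L with hv
  obtain ⟨x, hxI, hx0⟩ := Submodule.exists_mem_ne_zero_of_ne_bot hI
  have hval : ∀ y : V, v (y : L) ≤ 1 := fun y => valuation_le_one_of_mem hV hπ0 hπ y.2
  have hbdd : ∃ b : ℤ, ∀ n : ℤ, (∃ y ∈ I, y ≠ 0 ∧ v (y : L) = WithZero.exp n) → n ≤ b := by
    refine ⟨0, ?_⟩
    rintro n ⟨y, -, -, hy⟩
    have := hval y
    rw [hy, ← WithZero.exp_zero, WithZero.exp_le_exp] at this
    exact this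
  have hne : ∃ n : ℤ, ∃ y ∈ I, y ≠ 0 ∧ v (y : L) = WithZero.exp n := by
    have hx0' : v (x : L) ≠ 0 := (Valuation.ne_zero_iff _).2 (fun h => hx0 (Subtype.ext h))
    exact ⟨WithZero.log (v (x : L)), x, hxI, hx0, (WithZero.exp_log hx0').symm⟩
  obtain ⟨n₀, ⟨x₀, hx₀I, hx₀0, hx₀v⟩, hmax⟩ := Int.exists_greatest_of_bdd hbdd hne
  refine ⟨⟨x₀, ?_⟩⟩
  apply le_antisymm
  · intro y hy
    rw [Submodule.mem_span_singleton]
    by_cases hy0 : y = 0
    · exact ⟨0, by rw [hy0, zero_smul]⟩
    have hy0' : v (y : L) ≠ 0 := (Valuation.ne_zero_iff _).2 (fun h => hy0 (Subtype.ext h))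
    have hn : WithZero.log (v (y : L)) ≤ n₀ :=
      hmax _ ⟨y, hy, hy0, (WithZero.exp_log hy0').symm⟩
    have hx₀L : (x₀ : L) ≠ 0 := fun h => hx₀0 (Subtype.ext h)
    have hdiv : (y : L) / (x₀ : L) ∈ V := by
      apply mem_of_valuation_le_one hV hπ0 hπ
      rw [map_div₀]
      show v (y : L) / v (x₀ : L) ≤ 1
      rw [hx₀v, div_le_one₀ WithZero.exp_pos, ← WithZero.exp_log hy0', WithZero.exp_le_exp]
      exact hn
    refine ⟨⟨(y : L) / (x₀ : L), hdiv⟩, ?_⟩
    apply Subtype.ext
    show (y : L) / (x₀ : L) * (x₀ : L) = (y : L)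
    rw [div_mul_cancel₀ _ hx₀L]
  · rw [Submodule.span_le, Set.singleton_subset_iff]
    exact hx₀I

include hπ0 hπ in
theorem isDiscreteValuationRing_of_above {V : ValuationSubring L}
    (hV : V.comap (algebraMap K L) = O) : IsDiscreteValuationRing V := by
  haveI := isPrincipalIdealRing_of_above hπ0 hπ hV
  refine { not_a_field' := ?_ }
  intro h
  have hmem : algebraMap K L π ∈ V.nonunits := (algebraMap_mem_nonunits_iff_of_comap hV π).2 hπ
  have h1 : (⟨algebraMap K L π, mem_of_mem_nonunits V hmem⟩ : V) ∈ IsLocalRing.maximalIdeal V :=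
    ValuationSubring.coe_mem_nonunits_iff.1 hmem
  rw [h, Ideal.mem_bot] at h1
  have h2 : algebraMap K L π = 0 := congrArg Subtype.val h1
  exact hπ0 ((map_eq_zero _).1 h2)

end Above

end Fermat.Agent.H83.SS2
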