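import Mathlib

/-!
# P-SS2 row 899 (SS2-C2 VAL3), abstract part 1 (helper83): valuation subrings above a discrete
valuation ring and the primes of its integral closure

Mathlib only.  `K ⊆ L` a finite separable extension of fields, `O` a valuation subring of `K`
which is a discrete valuation ring, `B = integralClosure O L`.

* `center V hV` : the centre `{s ∈ B | s ∈ 𝔪_V}` of a valuation subring `V` of `L` above `O`
  (`V.comap (algebraMap K L) = O`); it is a non-zero prime ideal of `B` lying over `𝔪_O`.
* `mem_iff_valuation_centerSpec` : `V` is the valuation ring of its centre.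
* `le_ramificationIdx_center`, `le_inertiaDeg_center` : elementwise lower bounds for `e` and `f`.
-/

set_option autoImplicit false
set_option linter.unusedSectionVars false
set_option linter.style.haveILetI false

noncomputable section

namespace Fermat.Agent.H83.SS2

open IsDedekindDomain

/-! ### Non-units of a valuation subring -/

section Nonunits

variable {L : Type*} [Field L]

theorem mem_nonunits_iff_inv (V : ValuationSubring L) {x : L} (hx : x ≠ 0) :
    x ∈ V.nonunits ↔ x⁻¹ ∉ V := by
  rw [V.mem_nonunits_iff, ← V.valuation_le_one_iff, map_inv₀, not_le]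
  have h0 : V.valuation x ≠ 0 := (Valuation.ne_zero_iff _).2 hx
  rw [one_lt_inv₀ (zero_lt_iff.2 h0)]

theorem mem_of_mem_nonunits (V : ValuationSubring L) {x : L} (hx : x ∈ V.nonunits) : x ∈ V :=
  (V.valuation_le_one_iff x).1 (le_of_lt ((V.mem_nonunits_iff).1 hx))

theorem inv_mem_of_not_mem_nonunits (V : ValuationSubring L) {x : L} (hx : x ∉ V.nonunits) :
    x⁻¹ ∈ V := by
  by_cases h0 : x = 0
  · rw [h0, inv_zero]
    exact V.zero_mem
  · by_contra h
    exact hx ((mem_nonunits_iff_inv V h0).2 h)

theorem mul_mem_nonunits (V : ValuationSubring L) {x y : L} (hx : x ∈ V.nonunits) (hy : y ∈ V) :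
    x * y ∈ V.nonunits := by
  rw [V.mem_nonunits_iff] at hx ⊢
  rw [map_mul]
  have h1 := (V.valuation_le_one_iff y).2 hy
  calc V.valuation x * V.valuation y ≤ V.valuation x * 1 := by gcongr
    _ = V.valuation x := mul_one _
    _ < 1 := hx

theorem zero_mem_nonunits (V : ValuationSubring L) : (0 : L) ∈ V.nonunits := by
  rw [V.mem_nonunits_iff, map_zero]
  exact zero_lt_one

theorem one_notMem_nonunits (V : ValuationSubring L) : (1 : L) ∉ V.nonunits := by
  rw [V.mem_nonunits_iff, map_one]
  exact lt_irrefl _

theorem mem_nonunits_or_of_mul (V : ValuationSubring L) {x y : L}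
    (h : x * y ∈ V.nonunits) : x ∈ V.nonunits ∨ y ∈ V.nonunits := by
  by_contra hcon0
  have hcon := not_or.mp hcon0
  have h1 := inv_mem_of_not_mem_nonunits V hcon.1
  have h2 := inv_mem_of_not_mem_nonunits V hcon.2
  have hx0 : x ≠ 0 := fun h0 => hcon.1 (h0 ▸ zero_mem_nonunits V)
  have hy0 : y ≠ 0 := fun h0 => hcon.2 (h0 ▸ zero_mem_nonunits V)
  have h3 : (x * y)⁻¹ ∈ V := by
    rw [mul_inv]
    exact V.mul_mem _ _ h1 h2
  exact ((mem_nonunits_iff_inv V (mul_ne_zero hx0 hy0)).1 h) h3

variable {K : Type*} [Field K] [Algebra K L]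

theorem algebraMap_mem_iff_of_comap {V : ValuationSubring L} {O : ValuationSubring K}
    (hV : V.comap (algebraMap K L) = O) (a : K) : algebraMap K L a ∈ V ↔ a ∈ O := by
  rw [← hV, ValuationSubring.mem_comap]

theorem algebraMap_mem_nonunits_iff_of_comap {V : ValuationSubring L} {O : ValuationSubring K}
    (hV : V.comap (algebraMap K L) = O) (a : K) :
    algebraMap K L a ∈ V.nonunits ↔ a ∈ O.nonunits := by
  by_cases h0 : a = 0
  · rw [h0, map_zero]
    exact ⟨fun _ => zero_mem_nonunits O, fun _ => zero_mem_nonunits V⟩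
  · have h0' : algebraMap K L a ≠ 0 := by
      rwa [Ne, map_eq_zero]
    rw [mem_nonunits_iff_inv V h0', mem_nonunits_iff_inv O h0, ← map_inv₀,
      algebraMap_mem_iff_of_comap hV]

end Nonunits

/-! ### The centre of a valuation subring above `O` on the integral closure -/

section Center

variable {K L : Type*} [Field K] [Field L] [Algebra K L] (O : ValuationSubring K)

/-- Elements integral over `O` lie in every valuation subring of `L` above `O`. -/
theorem mem_of_isIntegral {V : ValuationSubring L} (hV : V.comap (algebraMap K L) = O)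
    {z : L} (hz : IsIntegral O z) : z ∈ V := by
  obtain ⟨p, hp, hpz⟩ := hz
  let φ : O →+* V := (algebraMap O L).codRestrict V.toSubring
    (fun a => (algebraMap_mem_iff_of_comap hV (a : K)).2 a.2)
  have hcomp : (algebraMap V L).comp φ = algebraMap O L := by
    ext a
    rfl
  have hint : IsIntegral V z := by
    refine ⟨p.map φ, hp.map φ, ?_⟩
    rw [Polynomial.eval₂_map, hcomp]
    exact hpz
  obtain ⟨y, hy⟩ := (IsIntegrallyClosed.isIntegral_iff (R := V) (K := L)).1 hint
  rw [← hy]
  exact y.2

/-- The centre of `V` on `B = integralClosure O L`. -/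
def center (V : ValuationSubring L) (hV : V.comap (algebraMap K L) = O) :
    Ideal (integralClosure O L) where
  carrier := {s | (s : L) ∈ V.nonunits}
  add_mem' := by
    intro a b ha hb
    exact V.nonunits.add_mem ha hb
  zero_mem' := zero_mem_nonunits V
  smul_mem' := by
    intro c a ha
    have hc : (c : L) ∈ V := mem_of_isIntegral O hV c.2
    show (c : L) * (a : L) ∈ V.nonunits
    rw [mul_comm]
    exact mul_mem_nonunits V ha hc

variable {O}

theorem mem_center_iff {V : ValuationSubring L} (hV : V.comap (algebraMap K L) = O)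
    (s : integralClosure O L) : s ∈ center O V hV ↔ (s : L) ∈ V.nonunits := Iff.rfl

theorem center_isPrime {V : ValuationSubring L} (hV : V.comap (algebraMap K L) = O) :
    (center O V hV).IsPrime := by
  refine ⟨?_, ?_⟩
  · intro h
    have h1 : (1 : integralClosure O L) ∈ center O V hV := by
      rw [h]
      exact Submodule.mem_top
    exact one_notMem_nonunits V ((mem_center_iff hV 1).1 h1)
  · intro a b hab
    exact mem_nonunits_or_of_mul V ((mem_center_iff hV (a * b)).1 hab)

theorem center_under {V : ValuationSubring L} (hV : V.comap (algebraMap K L) = O) :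
    (center O V hV).under O = IsLocalRing.maximalIdeal O := by
  ext a
  rw [Ideal.under_def, Ideal.mem_comap, mem_center_iff, ← ValuationSubring.coe_mem_nonunits_iff,
    ← algebraMap_mem_nonunits_iff_of_comap hV]
  rfl

theorem center_liesOver {V : ValuationSubring L} (hV : V.comap (algebraMap K L) = O) :
    (center O V hV).LiesOver (IsLocalRing.maximalIdeal O) :=
  ⟨(center_under hV).symm⟩

theorem center_ne_bot {V : ValuationSubring L} (hV : V.comap (algebraMap K L) = O)
    {π : K} (hπ0 : π ≠ 0) (hπ : π ∈ O.nonunits) : center O V hV ≠ ⊥ := by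
  intro h
  have hπO : π ∈ O := mem_of_mem_nonunits O hπ
  have h1 : algebraMap O (integralClosure O L) ⟨π, hπO⟩ ∈ center O V hV := by
    rw [mem_center_iff]
    exact (algebraMap_mem_nonunits_iff_of_comap hV π).2 hπ
  rw [h, Ideal.mem_bot] at h1
  have h2 := congrArg (fun s : integralClosure O L => (s : L)) h1
  have h3 : algebraMap K L π = 0 := h2
  exact hπ0 ((map_eq_zero _).1 h3)

end Center

/-! ### The Dedekind domain `B` -/

section Dedekind

variable {K L : Type*} [Field K] [Field L] [Algebra K L] [FiniteDimensional K L]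
  [Algebra.IsSeparable K L] (O : ValuationSubring K) [IsPrincipalIdealRing O]

theorem isDedekindDomain_closure : IsDedekindDomain (integralClosure O L) :=
  integralClosure.isDedekindDomain O K L

theorem isFractionRing_closure : IsFractionRing (integralClosure O L) L :=
  integralClosure.isFractionRing_of_finite_extension K L

theorem finite_closure : Module.Finite O (integralClosure O L) :=
  IsIntegralClosure.finite O K L (integralClosure O L)

attribute [local instance] isDedekindDomain_closure isFractionRing_closure finite_closure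

variable {O}

/-- The centre as a height one prime. -/
def centerSpec {V : ValuationSubring L} (hV : V.comap (algebraMap K L) = O)
    {π : K} (hπ0 : π ≠ 0) (hπ : π ∈ O.nonunits) : HeightOneSpectrum (integralClosure O L) :=
  ⟨center O V hV, center_isPrime hV, center_ne_bot hV hπ0 hπ⟩

theorem centerSpec_asIdeal {V : ValuationSubring L} (hV : V.comap (algebraMap K L) = O)
    {π : K} (hπ0 : π ≠ 0) (hπ : π ∈ O.nonunits) :
    (centerSpec hV hπ0 hπ).asIdeal = center O V hV := rfl

theorem mem_of_valuation_le_one {V : ValuationSubring L} (hV : V.comap (algebraMap K L) = O)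
    {π : K} (hπ0 : π ≠ 0) (hπ : π ∈ O.nonunits) {z : L}
    (hz : (centerSpec hV hπ0 hπ).valuation L z ≤ 1) : z ∈ V := by
  obtain ⟨n, d, hnd⟩ :=
    HeightOneSpectrum.exists_primeCompl_mul_eq_of_integer (K := L) (centerSpec hV hπ0 hπ) z hz
  have hd : ((d : integralClosure O L) : L) ∉ V.nonunits := fun h =>
    d.2 ((mem_center_iff hV (d : integralClosure O L)).2 h)
  have hd0 : ((d : integralClosure O L) : L) ≠ 0 := fun h0 => hd (h0 ▸ zero_mem_nonunits V)
  have hn : (n : L) ∈ V := mem_of_isIntegral O hV n.2
  have hz' : z = (n : L) * ((d : integralClosure O L) : L)⁻¹ := by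
    have h1 : z * ((d : integralClosure O L) : L) = (n : L) := hnd
    rw [← h1, mul_assoc, mul_inv_cancel₀ hd0, mul_one]
  rw [hz']
  exact V.mul_mem _ _ hn (inv_mem_of_not_mem_nonunits V hd)

theorem valuation_le_one_of_mem {V : ValuationSubring L} (hV : V.comap (algebraMap K L) = O)
    {π : K} (hπ0 : π ≠ 0) (hπ : π ∈ O.nonunits) {z : L} (hz : z ∈ V) :
    (centerSpec hV hπ0 hπ).valuation L z ≤ 1 := by
  by_contra hcon
  rw [not_le] at hcon
  have hz0 : z ≠ 0 := by
    intro h0
    rw [h0, map_zero] at hcon
    exact not_lt_of_ge zero_le_one hcon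
  have hinv : (centerSpec hV hπ0 hπ).valuation L z⁻¹ < 1 := by
    rw [map_inv₀]
    exact inv_lt_one_of_one_lt₀ hcon
  obtain ⟨n, d, hnd⟩ := HeightOneSpectrum.exists_primeCompl_mul_eq_of_integer (K := L)
    (centerSpec hV hπ0 hπ) z⁻¹ hinv.le
  have hd : ((d : integralClosure O L) : L) ∉ V.nonunits := fun h =>
    d.2 ((mem_center_iff hV (d : integralClosure O L)).2 h)
  have hd0 : ((d : integralClosure O L) : L) ≠ 0 := fun h0 => hd (h0 ▸ zero_mem_nonunits V)
  have h1 : z⁻¹ * ((d : integralClosure O L) : L) = (n : L) := hnd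
  have hvn : (centerSpec hV hπ0 hπ).valuation L (n : L) < 1 := by
    rw [← h1, map_mul]
    have hvd : (centerSpec hV hπ0 hπ).valuation L ((d : integralClosure O L) : L) ≤ 1 :=
      HeightOneSpectrum.valuation_le_one _ _
    calc _ ≤ (centerSpec hV hπ0 hπ).valuation L z⁻¹ * 1 := by gcongr
      _ = _ := mul_one _
      _ < 1 := hinv
  have hnP : n ∈ center O V hV := by
    have h2 : (centerSpec hV hπ0 hπ).valuation L (algebraMap (integralClosure O L) L n) < 1 := hvn
    rw [HeightOneSpectrum.valuation_of_algebraMap, HeightOneSpectrum.intValuation_lt_one_iff_mem]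
      at h2
    exact h2
  have hn' : (n : L) ∈ V.nonunits := (mem_center_iff hV n).1 hnP
  have hzinv : z⁻¹ ∈ V.nonunits := by
    have h3 : z⁻¹ = (n : L) * ((d : integralClosure O L) : L)⁻¹ := by
      rw [← h1, mul_assoc, mul_inv_cancel₀ hd0, mul_one]
    rw [h3]
    exact mul_mem_nonunits V hn' (inv_mem_of_not_mem_nonunits V hd)
  have := (mem_nonunits_iff_inv V (inv_ne_zero hz0)).1 hzinv
  rw [inv_inv] at this
  exact this hz

/-- `V` is the valuation ring of its centre. -/
theorem mem_iff_valuation_le_one {V : ValuationSubring L} (hV : V.comap (algebraMap K L) = O)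
    {π : K} (hπ0 : π ≠ 0) (hπ : π ∈ O.nonunits) (z : L) :
    z ∈ V ↔ (centerSpec hV hπ0 hπ).valuation L z ≤ 1 :=
  ⟨valuation_le_one_of_mem hV hπ0 hπ, mem_of_valuation_le_one hV hπ0 hπ⟩

theorem mem_nonunits_iff_valuation_lt_one {V : ValuationSubring L}
    (hV : V.comap (algebraMap K L) = O)
    {π : K} (hπ0 : π ≠ 0) (hπ : π ∈ O.nonunits) (z : L) :
    z ∈ V.nonunits ↔ (centerSpec hV hπ0 hπ).valuation L z < 1 := by
  by_cases hz0 : z = 0
  · rw [hz0, map_zero]
    exact ⟨fun _ => zero_lt_one, fun _ => zero_mem_nonunits V⟩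
  · rw [mem_nonunits_iff_inv V hz0, mem_iff_valuation_le_one hV hπ0 hπ, map_inv₀, not_le,
      one_lt_inv₀ (zero_lt_iff.2 ((Valuation.ne_zero_iff _).2 hz0))]

/-- A valuation subring above `O` is determined by its centre. -/
theorem eq_of_center_eq {V V' : ValuationSubring L} (hV : V.comap (algebraMap K L) = O)
    (hV' : V'.comap (algebraMap K L) = O) {π : K} (hπ0 : π ≠ 0) (hπ : π ∈ O.nonunits)
    (h : center O V hV = center O V' hV') : V = V' := by
  have hs : centerSpec hV hπ0 hπ = centerSpec hV' hπ0 hπ := by
    apply HeightOneSpectrum.ext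
    exact h
  ext z
  rw [mem_iff_valuation_le_one hV hπ0 hπ, mem_iff_valuation_le_one hV' hπ0 hπ, hs]

end Dedekind

end Fermat.Agent.H83.SS2
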