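import Fermat.Agent.H83.SS2.ExhaustRam

/-!
# P-SS2 row 899 (SS2-C2 VAL3), abstract part 3 (helper83): the counting argument

Mathlib only.  If valuation subrings `W i` of `L` above `O` have `∑ e_i f_i ≥ [L : K]` for lower
bounds `e_i ≤ e(W i | O)`, `f_i ≤ f(W i | O)`, then every prime of `B = integralClosure O L`
above `𝔪_O` is the centre of some `W i` and the bounds are equalities
(`Ideal.sum_ramification_inertia_eq_finrank`).
-/

set_option autoImplicit false
set_option linter.unusedSectionVars false
set_option linter.style.haveILetI false

noncomputable section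

namespace Fermat.Agent.H83.SS2

open IsDedekindDomain

attribute [local instance] isDedekindDomain_closure isFractionRing_closure finite_closure

section Count

variable {K L : Type*} [Field K] [Field L] [Algebra K L] [FiniteDimensional K L]
  [Algebra.IsSeparable K L] {O : ValuationSubring K} [IsPrincipalIdealRing O]
  {π : K} (hπ0 : π ≠ 0) (hπ : π ∈ O.nonunits)

include hπ0 hπ in
theorem count_main {r : ℕ} (W : Fin r → ValuationSubring L) (e f : Fin r → ℕ)
    (hW : Function.Injective W) (hWO : ∀ i, (W i).comap (algebraMap K L) = O)
    (he : ∀ i, e i ≤ (center O (W i) (hWO i)).ramificationIdx O)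
    (hf : ∀ i, f i ≤ (center O (W i) (hWO i)).inertiaDeg O)
    (hsum : Module.finrank K L ≤ ∑ i, e i * f i) :
    (∀ q : Ideal (integralClosure O L), q.IsPrime → q.LiesOver (IsLocalRing.maximalIdeal O) →
      ∃ i, q = center O (W i) (hWO i)) ∧
    (∀ i, e i = (center O (W i) (hWO i)).ramificationIdx O ∧
      f i = (center O (W i) (hWO i)).inertiaDeg O) := by
  classical
  have hfree : Module.Free O (integralClosure O L) :=
    IsIntegralClosure.module_free O K L (integralClosure O L)
  have hrank : Module.finrank O (integralClosure O L) = Module.finrank K L :=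
    IsIntegralClosure.rank O K L (integralClosure O L)
  letI : Fintype ((IsLocalRing.maximalIdeal O).primesOver (integralClosure O L)) :=
    (Algebra.QuasiFinite.finite_primesOver (IsLocalRing.maximalIdeal O)).fintype
  have hsumeq := Ideal.sum_ramification_inertia_eq_finrank
    (IsLocalRing.maximalIdeal O) (integralClosure O L)
  rw [hrank] at hsumeq
  -- the map `i ↦ centre of W i`
  let g : Fin r → (IsLocalRing.maximalIdeal O).primesOver (integralClosure O L) :=
    fun i => ⟨center O (W i) (hWO i), center_isPrime (hWO i), center_liesOver (hWO i)⟩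
  have hg : Function.Injective g := by
    intro i j hij
    have h1 : center O (W i) (hWO i) = center O (W j) (hWO j) := congrArg Subtype.val hij
    exact hW (eq_of_center_eq (hWO i) (hWO j) hπ0 hπ h1)
  set T : (IsLocalRing.maximalIdeal O).primesOver (integralClosure O L) → ℕ :=
    fun q => q.1.ramificationIdx O * q.1.inertiaDeg O with hT
  have hTpos : ∀ q, 0 < T q := by
    intro q
    haveI : q.1.IsPrime := q.2.1
    exact Nat.mul_pos (Ideal.ramificationIdx_pos q.1 O) (Ideal.inertiaDeg_pos q.1 O)
  have hle : ∀ i, e i * f i ≤ T (g i) := fun i => Nat.mul_le_mul (he i) (hf i)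
  have himage : ∑ i, T (g i) = ∑ q ∈ Finset.univ.image g, T q := by
    rw [Finset.sum_image (fun i _ j _ h => hg h)]
  have hsub : ∑ q ∈ Finset.univ.image g, T q ≤ ∑ q, T q :=
    Finset.sum_le_sum_of_subset (Finset.subset_univ _)
  have h1 : ∑ i, e i * f i ≤ ∑ i, T (g i) := Finset.sum_le_sum fun i _ => hle i
  have hchain : ∑ q, T q = ∑ i, e i * f i := by
    apply le_antisymm
    · rw [hsumeq]
      exact hsum
    · exact h1.trans (himage.le.trans hsub)
  refine ⟨?_, ?_⟩
  · intro q hq hqO
    by_contra hcon
    have hnot : (⟨q, hq, hqO⟩ : (IsLocalRing.maximalIdeal O).primesOver (integralClosure O L))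
        ∉ Finset.univ.image g := by
      intro hmem
      obtain ⟨i, -, hi⟩ := Finset.mem_image.1 hmem
      exact hcon ⟨i, (congrArg Subtype.val hi).symm⟩
    have hlt : ∑ q ∈ Finset.univ.image g, T q < ∑ q, T q :=
      Finset.sum_lt_sum_of_subset (Finset.subset_univ _) (Finset.mem_univ _) hnot
        (hTpos _) (fun _ _ _ => Nat.zero_le _)
    have := h1.trans (himage.le.trans hlt.le)
    have h2 : ∑ i, e i * f i < ∑ q, T q := h1.trans_lt (himage.le.trans_lt hlt)
    rw [hchain] at h2
    exact lt_irrefl _ h2
  · have heq : ∑ i, e i * f i = ∑ i, T (g i) := by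
      apply le_antisymm h1
      rw [← hchain]
      exact himage.le.trans hsub
    have hterm : ∀ i, e i * f i = T (g i) := by
      have := (Finset.sum_eq_sum_iff_of_le (fun i _ => hle i)).1 heq
      exact fun i => this i (Finset.mem_univ i)
    intro i
    have hpos := hTpos (g i)
    have hti : e i * f i = (center O (W i) (hWO i)).ramificationIdx O *
        (center O (W i) (hWO i)).inertiaDeg O := hterm i
    have hE : 0 < (center O (W i) (hWO i)).ramificationIdx O := Nat.pos_of_mul_pos_right
      (by simpa [hT, g] using hpos)
    have hF : 0 < (center O (W i) (hWO i)).inertiaDeg O := Nat.pos_of_mul_pos_left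
      (by simpa [hT, g] using hpos)
    constructor
    · by_contra hne
      have hlt : e i < (center O (W i) (hWO i)).ramificationIdx O := lt_of_le_of_ne (he i) hne
      have : e i * f i < (center O (W i) (hWO i)).ramificationIdx O *
          (center O (W i) (hWO i)).inertiaDeg O :=
        calc e i * f i ≤ e i * (center O (W i) (hWO i)).inertiaDeg O :=
              Nat.mul_le_mul_left _ (hf i)
          _ < _ := Nat.mul_lt_mul_of_pos_right hlt hF
      omega
    · by_contra hne
      have hlt : f i < (center O (W i) (hWO i)).inertiaDeg O := lt_of_le_of_ne (hf i) hne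
      have : e i * f i < (center O (W i) (hWO i)).ramificationIdx O *
          (center O (W i) (hWO i)).inertiaDeg O :=
        calc e i * f i ≤ (center O (W i) (hWO i)).ramificationIdx O * f i :=
              Nat.mul_le_mul_right _ (he i)
          _ < _ := Nat.mul_lt_mul_of_pos_left hlt hE
      omega

end Count

end Fermat.Agent.H83.SS2
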