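import Fermat.Agent.H83.SS2.Exhaust

/-!
# P-SS2 row 899 (SS2-C2 VAL3): EXHAUST for families indexed by a finite type (helper83)

`exhaust_fintype` : the statement of `Fermat.Agent.H83.SS2.exhaust` for a family `W : ι → _`
indexed by an arbitrary finite type.
-/

set_option autoImplicit false
set_option linter.unusedSectionVars false
set_option linter.style.haveILetI false

noncomputable section

namespace Fermat.Agent.H83.SS2

section ExhaustFintype

variable {K L : Type*} [Field K] [Field L] [Algebra K L] [FiniteDimensional K L]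
  [Algebra.IsSeparable K L] {O : ValuationSubring K} [IsPrincipalIdealRing O]
  {π : K} (hπ0 : π ≠ 0) (hπ : π ∈ O.nonunits) (hπu : ∀ y ∈ O.nonunits, y / π ∈ O)

include hπ0 hπ hπu in
/-- **EXHAUST**, finite index type. -/
theorem exhaust_fintype {ι : Type*} [Fintype ι] (W : ι → ValuationSubring L) (e f : ι → ℕ)
    (hW : Function.Injective W) (hWO : ∀ i, (W i).comap (algebraMap K L) = O)
    (t : ι → L) (ht : ∀ i, t i ∈ (W i).nonunits) (ht0 : ∀ i, t i ≠ 0)
    (hu : ∀ i, algebraMap K L π / t i ^ e i ∈ W i)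
    (b : ∀ i, Fin (f i) → L) (hb : ∀ i j, b i j ∈ W i)
    (hind : ∀ i (c : Fin (f i) → K), (∀ j, c j ∈ O) →
      (∑ j, algebraMap K L (c j) * b i j) ∈ (W i).nonunits → ∀ j, c j ∈ O.nonunits)
    (hsum : Module.finrank K L ≤ ∑ i, e i * f i) :
    (∀ V : ValuationSubring L, V.comap (algebraMap K L) = O → ∃ i, V = W i) ∧
    (∀ z : L, (∀ i, z ∈ W i) → IsIntegral O z) ∧
    (∀ i, (∀ y ∈ (W i).nonunits, y / t i ∈ W i) ∧
      (algebraMap K L π / t i ^ e i)⁻¹ ∈ W i) ∧
    (∀ i, ∀ z ∈ W i, ∃ c : Fin (f i) → K, (∀ j, c j ∈ O) ∧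
      z - ∑ j, algebraMap K L (c j) * b i j ∈ (W i).nonunits) := by
  classical
  let eq : ι ≃ Fin (Fintype.card ι) := Fintype.equivFin ι
  have hsum' : Module.finrank K L ≤ ∑ j, e (eq.symm j) * f (eq.symm j) := by
    rw [Equiv.sum_comp eq.symm (fun i => e i * f i)]
    exact hsum
  obtain ⟨h1, h2, h3, h4⟩ := exhaust hπ0 hπ hπu (fun j => W (eq.symm j))
    (fun j => e (eq.symm j)) (fun j => f (eq.symm j)) (hW.comp eq.symm.injective)
    (fun j => hWO _) (fun j => t (eq.symm j)) (fun j => ht _) (fun j => ht0 _) (fun j => hu _)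
    (fun j => b (eq.symm j)) (fun j => hb _) (fun j => hind _) hsum'
  refine ⟨?_, ?_, ?_, ?_⟩
  · intro V hV
    obtain ⟨j, hj⟩ := h1 V hV
    exact ⟨eq.symm j, hj⟩
  · intro z hz
    exact h2 z fun j => hz _
  · intro i
    have key : ∀ (j : Fin (Fintype.card ι)) (i : ι), eq.symm j = i →
        (∀ y ∈ (W i).nonunits, y / t i ∈ W i) ∧ (algebraMap K L π / t i ^ e i)⁻¹ ∈ W i := by
      intro j i hji
      subst hji
      exact h3 j
    exact key (eq i) i (eq.symm_apply_apply i)
  · intro i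
    have key : ∀ (j : Fin (Fintype.card ι)) (i : ι), eq.symm j = i →
        ∀ z ∈ W i, ∃ c : Fin (f i) → K, (∀ j, c j ∈ O) ∧
          z - ∑ j, algebraMap K L (c j) * b i j ∈ (W i).nonunits := by
      intro j i hji
      subst hji
      exact h4 j
    exact key (eq i) i (eq.symm_apply_apply i)

end ExhaustFintype

end Fermat.Agent.H83.SS2
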