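import Fermat.Agent.H83.SS2.ExhaustFintype

/-!
# P-SS2 row 899 (SS2-C2 VAL3): EXHAUST along a ring homomorphism (helper83)

`exhaust_ringHom` : the statement of `exhaust_fintype` for a field embedding `φ : K →+* L` of
finite degree (no `Algebra K L` instance), in characteristic zero.
-/

set_option autoImplicit false
set_option linter.unusedSectionVars false
set_option linter.style.haveILetI false

noncomputable section

namespace Fermat.Agent.H83.SS2

/-- **EXHAUST**, along a ring homomorphism. -/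
theorem exhaust_ringHom {K L : Type*} [Field K] [Field L] [CharZero K] (φ : K →+* L)
    (hfin : @FiniteDimensional K L _ _ (@Algebra.toModule K L _ _ φ.toAlgebra))
    {O : ValuationSubring K} (hO : IsPrincipalIdealRing O)
    {π : K} (hπ0 : π ≠ 0) (hπ : π ∈ O.nonunits) (hπu : ∀ y ∈ O.nonunits, y / π ∈ O)
    {ι : Type*} [Fintype ι] (W : ι → ValuationSubring L) (e f : ι → ℕ)
    (hW : Function.Injective W) (hWO : ∀ i, (W i).comap φ = O)
    (t : ι → L) (ht : ∀ i, t i ∈ (W i).nonunits) (ht0 : ∀ i, t i ≠ 0)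
    (hu : ∀ i, φ π / t i ^ e i ∈ W i)
    (b : ∀ i, Fin (f i) → L) (hb : ∀ i j, b i j ∈ W i)
    (hind : ∀ i (c : Fin (f i) → K), (∀ j, c j ∈ O) →
      (∑ j, φ (c j) * b i j) ∈ (W i).nonunits → ∀ j, c j ∈ O.nonunits)
    (hsum : @Module.finrank K L _ _ (@Algebra.toModule K L _ _ φ.toAlgebra) ≤ ∑ i, e i * f i) :
    (∀ V : ValuationSubring L, V.comap φ = O → ∃ i, V = W i) ∧
    (∀ i, (∀ y ∈ (W i).nonunits, y / t i ∈ W i) ∧ (φ π / t i ^ e i)⁻¹ ∈ W i) ∧
    (∀ i, ∀ z ∈ W i, ∃ c : Fin (f i) → K, (∀ j, c j ∈ O) ∧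
      z - ∑ j, φ (c j) * b i j ∈ (W i).nonunits) := by
  letI : Algebra K L := φ.toAlgebra
  haveI : FiniteDimensional K L := hfin
  haveI := hO
  obtain ⟨h1, -, h3, h4⟩ := exhaust_fintype (K := K) (L := L) hπ0 hπ hπu W e f hW hWO t ht ht0
    hu b hb hind hsum
  exact ⟨h1, h3, h4⟩

end Fermat.Agent.H83.SS2
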