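import Fermat.Agent.H83.SS2.ExhaustCore

/-!
# P-SS2 row 899 (SS2-C2 VAL3), abstract part 2 (helper83): ramification index and inertia degree
of the centre, elementwise

Mathlib only.  Setting of `ExhaustCore`; `π` a uniformiser of `O`.

* `valuation_uniformiser` : `v_P(π) = exp (- e(P | 𝔪_O))`.
* `le_ramificationIdx_center` : `π = u t ^ e`, `u ∈ V`, `t ∈ 𝔪_V ∖ {0}` implies `e ≤ e(P | 𝔪_O)`.
* `le_inertiaDeg_center` : `f` elements of `V` with independent residues give `f ≤ f(P | 𝔪_O)`.
-/

set_option autoImplicit false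
set_option linter.unusedSectionVars false
set_option linter.style.haveILetI false

noncomputable section

namespace Fermat.Agent.H83.SS2

open IsDedekindDomain

attribute [local instance] isDedekindDomain_closure isFractionRing_closure finite_closure

theorem zm0_le_exp_neg_one_of_lt_one {a : WithZero (Multiplicative ℤ)} (h : a < 1) :
    a ≤ WithZero.exp (-1 : ℤ) := by
  by_cases h0 : a = 0
  · rw [h0]
    exact zero_le
  · obtain ⟨n, rfl⟩ : ∃ n : ℤ, a = WithZero.exp n := ⟨WithZero.log a, (WithZero.exp_log h0).symm⟩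
    rw [← WithZero.exp_zero, WithZero.exp_lt_exp] at h
    rw [WithZero.exp_le_exp]
    omega

section Ram

variable {K L : Type*} [Field K] [Field L] [Algebra K L] [FiniteDimensional K L]
  [Algebra.IsSeparable K L] {O : ValuationSubring K} [IsPrincipalIdealRing O]
  {π : K} (hπ0 : π ≠ 0) (hπ : π ∈ O.nonunits) (hπu : ∀ y ∈ O.nonunits, y / π ∈ O)

/-- The uniformiser as an element of `O`. -/
def unifO (hπ : π ∈ O.nonunits) : O := ⟨π, mem_of_mem_nonunits O hπ⟩

include hπ0 in
theorem unifO_ne_zero : unifO hπ ≠ 0 := by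
  intro h
  exact hπ0 (congrArg Subtype.val h)

include hπ0 hπu in
theorem maximalIdeal_eq_span : IsLocalRing.maximalIdeal O = Ideal.span {unifO hπ} := by
  apply le_antisymm
  · intro a ha
    have ha' : (a : K) ∈ O.nonunits := ValuationSubring.coe_mem_nonunits_iff.2 ha
    rw [Ideal.mem_span_singleton']
    refine ⟨⟨(a : K) / π, hπu _ ha'⟩, ?_⟩
    apply Subtype.ext
    show (a : K) / π * π = a
    rw [div_mul_cancel₀ _ hπ0]
  · rw [Ideal.span_le, Set.singleton_subset_iff]
    exact ValuationSubring.coe_mem_nonunits_iff.1 hπ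

/-- The uniformiser as an element of `B`. -/
def unifB (hπ : π ∈ O.nonunits) : integralClosure O L :=
  algebraMap O (integralClosure O L) (unifO hπ)

theorem coe_unifB : ((unifB (L := L) hπ : integralClosure O L) : L) = algebraMap K L π := rfl

include hπ0 in
theorem unifB_ne_zero : unifB (L := L) hπ ≠ 0 := by
  intro h
  have h1 := congrArg (fun s : integralClosure O L => (s : L)) h
  have h2 : algebraMap K L π = 0 := h1
  exact hπ0 ((map_eq_zero _).1 h2)

include hπ0 hπu in
theorem map_maximalIdeal :
    (IsLocalRing.maximalIdeal O).map (algebraMap O (integralClosure O L))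
      = Ideal.span {unifB (L := L) hπ} := by
  rw [maximalIdeal_eq_span hπ0 hπ hπu, Ideal.map_span, Set.image_singleton]
  rfl

include hπ0 hπ hπu in
theorem map_maximalIdeal_ne_bot :
    (IsLocalRing.maximalIdeal O).map (algebraMap O (integralClosure O L)) ≠ ⊥ := by
  rw [map_maximalIdeal hπ0 hπ hπu, Ne, Ideal.span_singleton_eq_bot]
  exact unifB_ne_zero hπ0 hπ

include hπu in
/-- `v_P(π) = exp (- e(P | 𝔪_O))`. -/
theorem valuation_uniformiser {V : ValuationSubring L} (hV : V.comap (algebraMap K L) = O) :
    (centerSpec hV hπ0 hπ).valuation L (algebraMap K L π)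
      = WithZero.exp (-((center O V hV).ramificationIdx O : ℤ)) := by
  haveI := center_liesOver hV
  haveI := center_isPrime hV
  have h3 := Ideal.IsDedekindDomain.ramificationIdx_eq_multiplicity
    (IsLocalRing.maximalIdeal O) (center O V hV) (map_maximalIdeal_ne_bot (L := L) hπ0 hπ hπu)
  rw [← coe_unifB hπ]
  show (centerSpec hV hπ0 hπ).valuation L (algebraMap (integralClosure O L) L (unifB hπ)) = _
  rw [HeightOneSpectrum.valuation_of_algebraMap,
    HeightOneSpectrum.intValuation_eq_exp_neg_multiplicity _ (unifB_ne_zero hπ0 hπ),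
    h3, map_maximalIdeal hπ0 hπ hπu]
  rfl

include hπ0 hπ hπu in
/-- Elementwise lower bound for the ramification index. -/
theorem le_ramificationIdx_center {V : ValuationSubring L} (hV : V.comap (algebraMap K L) = O)
    {e : ℕ} {t : L} (ht : t ∈ V.nonunits) (ht0 : t ≠ 0) (hu : algebraMap K L π / t ^ e ∈ V) :
    e ≤ (center O V hV).ramificationIdx O := by
  have h1 := valuation_uniformiser hπ0 hπ hπu hV
  have hvt : (centerSpec hV hπ0 hπ).valuation L t ≤ WithZero.exp (-1 : ℤ) :=
    zm0_le_exp_neg_one_of_lt_one ((mem_nonunits_iff_valuation_lt_one hV hπ0 hπ t).1 ht)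
  have hvu := valuation_le_one_of_mem hV hπ0 hπ hu
  have hπeq : algebraMap K L π = algebraMap K L π / t ^ e * t ^ e := by
    rw [div_mul_cancel₀ _ (pow_ne_zero e ht0)]
  have h2 : (centerSpec hV hπ0 hπ).valuation L (algebraMap K L π)
      ≤ WithZero.exp (-(e : ℤ)) := by
    rw [hπeq, map_mul, map_pow]
    calc _ ≤ 1 * (WithZero.exp (-1 : ℤ)) ^ e := by gcongr
      _ = WithZero.exp (-(e : ℤ)) := by
        rw [one_mul, ← WithZero.exp_nsmul]
        simp
  rw [h1, WithZero.exp_le_exp] at h2
  omega

theorem center_isMaximal {V : ValuationSubring L} (hV : V.comap (algebraMap K L) = O)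
    (hπ0 : π ≠ 0) (hπ : π ∈ O.nonunits) : (center O V hV).IsMaximal :=
  (centerSpec hV hπ0 hπ).isMaximal

include hπ0 hπ in
/-- Every element of `V` is congruent to an element of `B` modulo `𝔪_V`. -/
theorem exists_sub_mem_nonunits {V : ValuationSubring L} (hV : V.comap (algebraMap K L) = O)
    {b : L} (hb : b ∈ V) : ∃ s : integralClosure O L, b - (s : L) ∈ V.nonunits := by
  obtain ⟨n, d, hnd⟩ := HeightOneSpectrum.exists_primeCompl_mul_eq_of_integer (K := L)
    (centerSpec hV hπ0 hπ) b (valuation_le_one_of_mem hV hπ0 hπ hb)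
  have hmax : (center O V hV).IsMaximal := center_isMaximal hV hπ0 hπ
  obtain ⟨y, i, hi, hyi⟩ := hmax.exists_inv (x := (d : integralClosure O L)) d.2
  refine ⟨n * y, ?_⟩
  have h1 : b * ((d : integralClosure O L) : L) = (n : L) := hnd
  have h2 : (y : L) * ((d : integralClosure O L) : L) + (i : L) = 1 := by
    have := congrArg (fun s : integralClosure O L => (s : L)) hyi
    simpa using this
  have h3 : b - ((n * y : integralClosure O L) : L) = (i : L) * b := by
    have : ((n * y : integralClosure O L) : L) = (n : L) * (y : L) := rfl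
    rw [this, ← h1]
    linear_combination (-b) * h2
  rw [h3]
  exact mul_mem_nonunits V ((mem_center_iff hV i).1 hi) hb

/-- Representatives in `B` of elements of `V` with independent residues are linearly
independent modulo the centre. -/
theorem linearIndependent_residue {V : ValuationSubring L} (hV : V.comap (algebraMap K L) = O)
    [(center O V hV).LiesOver (IsLocalRing.maximalIdeal O)]
    {f : ℕ} (b : Fin f → L) (s : Fin f → integralClosure O L)
    (hs : ∀ j, b j - (s j : L) ∈ V.nonunits)
    (hind : ∀ c : Fin f → K, (∀ j, c j ∈ O) →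
      (∑ j, algebraMap K L (c j) * b j) ∈ V.nonunits → ∀ j, c j ∈ O.nonunits) :
    LinearIndependent (O ⧸ IsLocalRing.maximalIdeal O)
      (fun j : Fin f => Ideal.Quotient.mk (center O V hV) (s j)) := by
  classical
  rw [Fintype.linearIndependent_iff]
  intro g hg j
  choose c hc using fun j => Ideal.Quotient.mk_surjective (g j)
  have h1 : ∑ j, g j • Ideal.Quotient.mk (center O V hV) (s j)
      = Ideal.Quotient.mk (center O V hV)
        (∑ j, algebraMap O (integralClosure O L) (c j) * s j) := by
    rw [map_sum]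
    refine Finset.sum_congr rfl fun j _ => ?_
    rw [← hc j, Algebra.smul_def, Ideal.Quotient.algebraMap_mk_of_liesOver, ← map_mul]
  rw [h1, Ideal.Quotient.eq_zero_iff_mem, mem_center_iff] at hg
  have h2 : ((∑ j, algebraMap O (integralClosure O L) (c j) * s j : integralClosure O L) : L)
      = ∑ j, algebraMap K L ((c j : O) : K) * (s j : L) := by
    rw [← Subalgebra.coe_val, map_sum]
    rfl
  rw [h2] at hg
  have h3 : (∑ j, algebraMap K L ((c j : O) : K) * b j) ∈ V.nonunits := by
    have h4 : ∑ j, algebraMap K L ((c j : O) : K) * b j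
        = ∑ j, algebraMap K L ((c j : O) : K) * (s j : L)
          + ∑ j, (b j - (s j : L)) * algebraMap K L ((c j : O) : K) := by
      rw [← Finset.sum_add_distrib]
      refine Finset.sum_congr rfl fun j _ => ?_
      ring
    rw [h4]
    refine V.nonunits.add_mem hg (sum_mem fun j _ => ?_)
    exact mul_mem_nonunits V (hs j)
      ((algebraMap_mem_iff_of_comap hV _).2 (c j).2)
  have h5 := hind (fun j => ((c j : O) : K)) (fun j => (c j).2) h3 j
  rw [← hc j, Ideal.Quotient.eq_zero_iff_mem]
  exact ValuationSubring.coe_mem_nonunits_iff.1 h5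

include hπ0 hπ in
/-- Elementwise lower bound for the inertia degree. -/
theorem le_inertiaDeg_center {V : ValuationSubring L} (hV : V.comap (algebraMap K L) = O)
    {f : ℕ} (b : Fin f → L) (hb : ∀ j, b j ∈ V)
    (hind : ∀ c : Fin f → K, (∀ j, c j ∈ O) →
      (∑ j, algebraMap K L (c j) * b j) ∈ V.nonunits → ∀ j, c j ∈ O.nonunits) :
    f ≤ (center O V hV).inertiaDeg O := by
  classical
  haveI := center_liesOver hV
  haveI : (center O V hV).IsMaximal := center_isMaximal hV hπ0 hπ
  rw [Ideal.inertiaDeg_eq_of_isMaximal (IsLocalRing.maximalIdeal O) (center O V hV)]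
  choose s hs using fun j => exists_sub_mem_nonunits hπ0 hπ hV (hb j)
  have hli := linearIndependent_residue hV b s hs hind
  haveI : Module.Finite (O ⧸ IsLocalRing.maximalIdeal O)
      (integralClosure O L ⧸ center O V hV) :=
    Module.Finite.of_restrictScalars_finite O _ _
  have := hli.fintype_card_le_finrank
  simpa using this

include hπ0 hπ in
/-- If the lower bound for the inertia degree is an equality, the residues of the `b j` span the
residue field. -/
theorem exists_residue_combination {V : ValuationSubring L} (hV : V.comap (algebraMap K L) = O)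
    {f : ℕ} (b : Fin f → L) (hb : ∀ j, b j ∈ V)
    (hind : ∀ c : Fin f → K, (∀ j, c j ∈ O) →
      (∑ j, algebraMap K L (c j) * b j) ∈ V.nonunits → ∀ j, c j ∈ O.nonunits)
    (hf : f = (center O V hV).inertiaDeg O) {z : L} (hz : z ∈ V) :
    ∃ c : Fin f → K, (∀ j, c j ∈ O) ∧ z - ∑ j, algebraMap K L (c j) * b j ∈ V.nonunits := by
  classical
  haveI := center_liesOver hV
  haveI : (center O V hV).IsMaximal := center_isMaximal hV hπ0 hπ
  rw [Ideal.inertiaDeg_eq_of_isMaximal (IsLocalRing.maximalIdeal O) (center O V hV)] at hf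
  choose s hs using fun j => exists_sub_mem_nonunits hπ0 hπ hV (hb j)
  have hli := linearIndependent_residue hV b s hs hind
  haveI : Module.Finite (O ⧸ IsLocalRing.maximalIdeal O)
      (integralClosure O L ⧸ center O V hV) :=
    Module.Finite.of_restrictScalars_finite O _ _
  letI : Field (O ⧸ IsLocalRing.maximalIdeal O) := Ideal.Quotient.field _
  have hspan : Submodule.span (O ⧸ IsLocalRing.maximalIdeal O)
      (Set.range fun j : Fin f => Ideal.Quotient.mk (center O V hV) (s j)) = ⊤ :=
    LinearIndependent.span_eq_top_of_card_eq_finrank' hli (by simpa using hf)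
  obtain ⟨sz, hsz⟩ := exists_sub_mem_nonunits hπ0 hπ hV hz
  have hmem : Ideal.Quotient.mk (center O V hV) sz
      ∈ Submodule.span (O ⧸ IsLocalRing.maximalIdeal O)
        (Set.range fun j : Fin f => Ideal.Quotient.mk (center O V hV) (s j)) := by
    rw [hspan]
    exact Submodule.mem_top
  obtain ⟨g, hg⟩ := (Submodule.mem_span_range_iff_exists_fun _).1 hmem
  choose c hc using fun j => Ideal.Quotient.mk_surjective (g j)
  refine ⟨fun j => ((c j : O) : K), fun j => (c j).2, ?_⟩
  have h1 : ∑ j, g j • Ideal.Quotient.mk (center O V hV) (s j)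
      = Ideal.Quotient.mk (center O V hV)
        (∑ j, algebraMap O (integralClosure O L) (c j) * s j) := by
    rw [map_sum]
    refine Finset.sum_congr rfl fun j _ => ?_
    rw [← hc j, Algebra.smul_def, Ideal.Quotient.algebraMap_mk_of_liesOver, ← map_mul]
  rw [h1, eq_comm, ← sub_eq_zero, ← map_sub, Ideal.Quotient.eq_zero_iff_mem, mem_center_iff] at hg
  have h2 : ((sz - ∑ j, algebraMap O (integralClosure O L) (c j) * s j : integralClosure O L) : L)
      = (sz : L) - ∑ j, algebraMap K L ((c j : O) : K) * (s j : L) := by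
    rw [← Subalgebra.coe_val, map_sub, map_sum]
    rfl
  rw [h2] at hg
  have h4 : z - ∑ j, algebraMap K L ((c j : O) : K) * b j
      = ((sz : L) - ∑ j, algebraMap K L ((c j : O) : K) * (s j : L)) + ((z - (sz : L))
        + ∑ j, (b j - (s j : L)) * (-algebraMap K L ((c j : O) : K))) := by
    have : ∑ j, algebraMap K L ((c j : O) : K) * b j
        = ∑ j, algebraMap K L ((c j : O) : K) * (s j : L)
          - ∑ j, (b j - (s j : L)) * (-algebraMap K L ((c j : O) : K)) := by
      rw [← Finset.sum_sub_distrib]
      refine Finset.sum_congr rfl fun j _ => ?_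
      ring
    rw [this]
    ring
  rw [h4]
  refine V.nonunits.add_mem hg (V.nonunits.add_mem hsz (sum_mem fun j _ => ?_))
  exact mul_mem_nonunits V (hs j) (V.neg_mem _ ((algebraMap_mem_iff_of_comap hV _).2 (c j).2))

end Ram

end Fermat.Agent.H83.SS2
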