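import Fermat.Agent.H83.SS2.ExhaustFintype
import Fermat.Agent.H87.KL.KumGauss

/-!
# P-SS2 row 899 (SS2-C2 VAL3): GAUSS-TOWER (helper83)

Chart language of `Fermat.Agent.H22.KL` (`gaussClosure`) and `Fermat.Agent.H87.KL` (`GC`, `IntX`).
`F ⊆ E` a finite separable extension of fields containing `A`, `x ∈ F` transcendental over `A`.

INPUT (level `F`): the Gauss closure `C_F(x)` is the intersection of finitely many discrete
valuation subrings `U k` of `F` (uniformisers `π k`).
INPUT (level `E`): pairwise distinct valuation subrings `W i` of `E`, `W i` above `U (σ i)`, with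
elementwise lower bounds `e i`, `f i` such that `[E : F] ≤ ∑_{σ i = k} e i * f i` for every `k`.

OUTPUT (`gaussTower`): `C_E(x) = ⋂ W i`; every valuation subring of `E` above some `U k` is one
of the `W i`; exactness of `e i`, `f i` as in `Fermat.Agent.H83.SS2.exhaust`.
-/

set_option autoImplicit false
set_option linter.unusedSectionVars false
set_option linter.style.haveILetI false

noncomputable section

namespace Fermat.Agent.H83.SS2

open Polynomial
open Fermat.Agent.H22.KL Fermat.Agent.H87.KL

section Integral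

variable {E : Type*} [Field E]

/-- A valuation subring is integrally closed: ring-homomorphism form. -/
theorem mem_of_isIntegralElem {R : Type*} [CommRing R] (V : ValuationSubring E) (g : R →+* E)
    (hg : ∀ a, g a ∈ V) {y : E} (hy : g.IsIntegralElem y) : y ∈ V := by
  obtain ⟨p, hp, hpy⟩ := hy
  let φ : R →+* V := g.codRestrict V.toSubring hg
  have hcomp : (algebraMap V E).comp φ = g := by
    ext a
    rfl
  have hint : IsIntegral V y := by
    refine ⟨p.map φ, hp.map φ, ?_⟩
    rw [Polynomial.eval₂_map, hcomp]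
    exact hpy
  obtain ⟨w, hw⟩ := (IsIntegrallyClosed.isIntegral_iff (R := V) (K := E)).1 hint
  rw [← hw]
  exact w.2

end Integral

section Tower

variable {A : Type} [CommRing A] [IsDomain A]
  {F E : Type} [Field F] [Field E] [Algebra A F] [Algebra A E] [Algebra F E]
  [IsScalarTower A F E]

theorem evX_tower (x : F) :
    evX (A := A) (algebraMap F E x) = (algebraMap F E).comp (evX (A := A) x) := by
  apply RingHom.ext
  intro H
  show aeval (algebraMap F E x) H = algebraMap F E (aeval x H)
  exact Polynomial.aeval_algebraMap_apply E x H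

theorem aeval_tower (x : F) (H : A[X]) :
    aeval (algebraMap F E x) H = algebraMap F E (aeval x H) :=
  Polynomial.aeval_algebraMap_apply E x H

/-- Integrality over `A[x]` in the tower: a root of a monic polynomial over `F` whose
coefficients are integral over `A[x]` is integral over `A[x]`. -/
theorem intX_of_monic_of_coeff (x : F) (q : F[X]) (hq : q.Monic)
    (hc : ∀ i, IntX (A := A) x (q.coeff i)) {y : E} (hy : aeval y q = 0) :
    IntX (A := A) (algebraMap F E x) y := by
  letI algF : Algebra A[X] F := (evX (A := A) x).toAlgebra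
  letI algE : Algebra A[X] E := (evX (A := A) (algebraMap F E x)).toAlgebra
  haveI : IsScalarTower A[X] F E := IsScalarTower.of_algebraMap_eq' (evX_tower x)
  have hc' : ∀ i, q.coeff i ∈ integralClosure A[X] F := fun i => hc i
  have hl : q ∈ Polynomial.lifts (algebraMap (integralClosure A[X] F) F) := by
    rw [Polynomial.lifts_iff_coeff_lifts]
    intro i
    exact ⟨⟨q.coeff i, hc' i⟩, rfl⟩
  obtain ⟨Q, hQ, -, hQm⟩ := Polynomial.lifts_and_degree_eq_and_monic hl hq
  have hint : IsIntegral (integralClosure A[X] F) y := by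
    refine ⟨Q, hQm, ?_⟩
    have h1 : aeval y (Q.map (algebraMap (integralClosure A[X] F) F)) = 0 := by
      rw [hQ]
      exact hy
    rw [Polynomial.aeval_map_algebraMap] at h1
    exact h1
  have h2 : IsIntegral A[X] y := isIntegral_trans y hint
  exact h2

/-- `C_E(x) ⊆ W` for every valuation subring `W` of `E` whose restriction to `F` contains
`C_F(x)`. -/
theorem gaussClosure_le_of_comap {ϖ : A} (hϖ : Prime ϖ) {x : F} (hx : Transcendental A x)
    (W : ValuationSubring E)
    (hW : ∀ z : F, z ∈ gaussClosure A F ϖ x → algebraMap F E z ∈ W)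
    {z : E} (hz : z ∈ gaussClosure A E ϖ (algebraMap F E x)) : z ∈ W := by
  have hX : Transcendental A (algebraMap F E x) :=
    (transcendental_algebraMap_iff (algebraMap F E).injective).mpr hx
  obtain ⟨H, hH, hint⟩ := (mem_gaussClosure_iff hX ϖ z).1 hz
  have hrange : ∀ P : A[X], evX (A := A) (algebraMap F E x) P ∈ W := by
    intro P
    rw [evX_apply, aeval_tower]
    apply hW
    rw [mem_gaussClosure_iff hx]
    refine ⟨1, ?_, ?_⟩
    · intro h
      exact (Polynomial.prime_C_iff.2 hϖ).not_isUnit (isUnit_of_dvd_one h)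
    · rw [map_one, one_mul]
      exact IntX.map x P
  have h1 : aeval (algebraMap F E x) H * z ∈ W :=
    mem_of_isIntegralElem W (evX (A := A) (algebraMap F E x)) hrange hint
  have hH0 : aeval x H ≠ 0 := by
    intro h0
    have : H = 0 := by
      by_contra hne
      exact hx ⟨H, hne, h0⟩
    exact hH (this ▸ dvd_zero _)
  have h2 : algebraMap F E (aeval x H)⁻¹ ∈ W := by
    apply hW
    rw [mem_gaussClosure_iff hx]
    refine ⟨H, hH, ?_⟩
    rw [mul_inv_cancel₀ hH0, ← map_one (aeval x : A[X] →ₐ[A] F)]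
    exact IntX.map x 1
  have h3 : z = algebraMap F E (aeval x H)⁻¹ * (aeval (algebraMap F E x) H * z) := by
    rw [aeval_tower, ← mul_assoc, ← map_mul, inv_mul_cancel₀ hH0, map_one, one_mul]
  rw [h3]
  exact W.mul_mem _ _ h2 h1

/-- An element of `E` whose minimal polynomial over `F` has coefficients in `C_F(x)` lies in
`C_E(x)`. -/
theorem mem_gaussClosure_of_minpoly [FiniteDimensional F E] {ϖ : A} (hϖ : Prime ϖ) {x : F}
    (hx : Transcendental A x) {z : E}
    (hz : ∀ j, (minpoly F z).coeff j ∈ gaussClosure A F ϖ x) :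
    z ∈ gaussClosure A E ϖ (algebraMap F E x) := by
  classical
  have hX : Transcendental A (algebraMap F E x) :=
    (transcendental_algebraMap_iff (algebraMap F E).injective).mpr hx
  have hzint : IsIntegral F z := Algebra.IsIntegral.isIntegral z
  have hmonic : (minpoly F z).Monic := minpoly.monic hzint
  have hGC : ∀ j, GC ϖ x ((minpoly F z).coeff j) := fun j =>
    (mem_gaussClosure_iff hx ϖ _).1 (hz j)
  choose H hH hI using hGC
  set n := (minpoly F z).natDegree with hn
  set P : A[X] := ∏ j ∈ Finset.range n, H j with hP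
  have hPnd : ¬ C ϖ ∣ P := by
    intro hd
    obtain ⟨j, -, hj⟩ := (Polynomial.prime_C_iff.2 hϖ).exists_mem_finset_dvd hd
    exact hH j hj
  have hcoef : ∀ j, j < n → IntX (A := A) x (aeval x P * (minpoly F z).coeff j) := by
    intro j hj
    have hjm : j ∈ Finset.range n := Finset.mem_range.2 hj
    have h1 : P = H j * ∏ i ∈ (Finset.range n).erase j, H i :=
      (Finset.mul_prod_erase (Finset.range n) H hjm).symm
    rw [h1, map_mul]
    have h2 : aeval x (H j) * aeval x (∏ i ∈ (Finset.range n).erase j, H i) *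
        (minpoly F z).coeff j
        = (aeval x (H j) * (minpoly F z).coeff j) *
          aeval x (∏ i ∈ (Finset.range n).erase j, H i) := by ring
    rw [h2]
    exact (hI j).mul (IntX.map x _)
  have hq : ∀ i, IntX (A := A) x (((minpoly F z).scaleRoots (aeval x P)).coeff i) := by
    intro i
    rw [Polynomial.coeff_scaleRoots]
    rcases lt_trichotomy i n with hlt | heq | hgt
    · have h1 : (minpoly F z).coeff i * aeval x P ^ (n - i)
          = (aeval x P * (minpoly F z).coeff i) * aeval x (P ^ (n - i - 1)) := by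
        rw [map_pow]
        have h2 : n - i = (n - i - 1) + 1 := by omega
        conv_lhs => rw [h2, pow_succ]
        ring
      rw [← hn, h1]
      exact (hcoef i hlt).mul (IntX.map x _)
    · rw [heq, hn, Nat.sub_self, pow_zero, mul_one, hmonic.coeff_natDegree,
        ← map_one (aeval x : A[X] →ₐ[A] F)]
      exact IntX.map x 1
    · rw [Polynomial.coeff_eq_zero_of_natDegree_lt hgt, zero_mul,
        ← map_zero (aeval x : A[X] →ₐ[A] F)]
      exact IntX.map x 0
  have hroot : aeval (algebraMap F E (aeval x P) * z) ((minpoly F z).scaleRoots (aeval x P))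
      = 0 := Polynomial.scaleRoots_aeval_eq_zero (minpoly.aeval F z)
  have hint := intX_of_monic_of_coeff (A := A) x _
    ((Polynomial.monic_scaleRoots_iff _).2 hmonic) hq hroot
  rw [mem_gaussClosure_iff hX]
  refine ⟨P, hPnd, ?_⟩
  rw [aeval_tower]
  exact hint

end Tower

section Main

variable {A : Type} [CommRing A] [IsDomain A]
  {F E : Type} [Field F] [Field E] [Algebra A F] [Algebra A E] [Algebra F E]
  [IsScalarTower A F E] [FiniteDimensional F E] [Algebra.IsSeparable F E]

/-- **GAUSS-TOWER**. -/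
theorem gaussTower {ϖ : A} (hϖ : Prime ϖ) {x : F} (hx : Transcendental A x)
    {κ ι : Type*} [Fintype κ] [Fintype ι] [DecidableEq κ]
    (U : κ → ValuationSubring F) (hU : ∀ k, IsPrincipalIdealRing (U k))
    (π : κ → F) (hπ0 : ∀ k, π k ≠ 0) (hπ : ∀ k, π k ∈ (U k).nonunits)
    (hπu : ∀ k, ∀ y ∈ (U k).nonunits, y / π k ∈ U k)
    (hgauss : ∀ z : F, z ∈ gaussClosure A F ϖ x ↔ ∀ k, z ∈ U k)
    (W : ι → ValuationSubring E) (σ : ι → κ) (e f : ι → ℕ)
    (hW : Function.Injective W) (hWU : ∀ i, (W i).comap (algebraMap F E) = U (σ i))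
    (t : ι → E) (ht : ∀ i, t i ∈ (W i).nonunits) (ht0 : ∀ i, t i ≠ 0)
    (hu : ∀ i, algebraMap F E (π (σ i)) / t i ^ e i ∈ W i)
    (b : ∀ i, Fin (f i) → E) (hb : ∀ i j, b i j ∈ W i)
    (hind : ∀ i (c : Fin (f i) → F), (∀ j, c j ∈ U (σ i)) →
      (∑ j, algebraMap F E (c j) * b i j) ∈ (W i).nonunits → ∀ j, c j ∈ (U (σ i)).nonunits)
    (hsum : ∀ k, Module.finrank F E ≤ ∑ i ∈ Finset.univ.filter (fun i => σ i = k), e i * f i) :
    (∀ z : E, z ∈ gaussClosure A E ϖ (algebraMap F E x) ↔ ∀ i, z ∈ W i) ∧
    (∀ k (V : ValuationSubring E), V.comap (algebraMap F E) = U k → ∃ i, σ i = k ∧ V = W i) ∧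
    (∀ i, (∀ y ∈ (W i).nonunits, y / t i ∈ W i) ∧
      (algebraMap F E (π (σ i)) / t i ^ e i)⁻¹ ∈ W i) ∧
    (∀ i, ∀ z ∈ W i, ∃ c : Fin (f i) → F, (∀ j, c j ∈ U (σ i)) ∧
      z - ∑ j, algebraMap F E (c j) * b i j ∈ (W i).nonunits) := by
  classical
  -- EXHAUST above each `U k`
  have hex : ∀ k,
      (∀ V : ValuationSubring E, V.comap (algebraMap F E) = U k →
        ∃ i : {i // σ i = k}, V = W i.1) ∧
      (∀ z : E, (∀ i : {i // σ i = k}, z ∈ W i.1) → IsIntegral (U k) z) ∧
      (∀ i : {i // σ i = k}, (∀ y ∈ (W i.1).nonunits, y / t i.1 ∈ W i.1) ∧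
        (algebraMap F E (π k) / t i.1 ^ e i.1)⁻¹ ∈ W i.1) ∧
      (∀ i : {i // σ i = k}, ∀ z ∈ W i.1, ∃ c : Fin (f i.1) → F, (∀ j, c j ∈ U k) ∧
        z - ∑ j, algebraMap F E (c j) * b i.1 j ∈ (W i.1).nonunits) := by
    intro k
    haveI := hU k
    have hsum' : Module.finrank F E ≤ ∑ i : {i // σ i = k}, e i.1 * f i.1 := by
      have h1 : ∑ a ∈ Finset.univ.filter (fun i => σ i = k), e a * f a
          = ∑ a : {i // σ i = k}, e a.1 * f a.1 :=
        Finset.sum_subtype _ (by simp) _
      rw [← h1]
      exact hsum k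
    refine exhaust_fintype (hπ0 k) (hπ k) (hπu k) (fun i : {i // σ i = k} => W i.1)
      (fun i => e i.1) (fun i => f i.1) ?_ ?_ (fun i => t i.1) (fun i => ht i.1)
      (fun i => ht0 i.1) ?_ (fun i => b i.1) (fun i => hb i.1) ?_ hsum'
    · intro i j hij
      exact Subtype.ext (hW hij)
    · intro i
      rw [hWU i.1, i.2]
    · intro i
      have := hu i.1
      rw [i.2] at this
      exact this
    · intro i
      have := hind i.1
      rw [i.2] at this
      exact this
  refine ⟨?_, ?_, ?_, ?_⟩
  · intro z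
    constructor
    · intro hz i
      refine gaussClosure_le_of_comap hϖ hx (W i) ?_ hz
      intro y hy
      have h1 : y ∈ U (σ i) := (hgauss y).1 hy (σ i)
      rw [← hWU i] at h1
      exact h1
    · intro hz
      apply mem_gaussClosure_of_minpoly hϖ hx
      intro j
      rw [hgauss]
      intro k
      have hint : IsIntegral (U k) z := (hex k).2.1 z (fun i => hz i.1)
      have h1 := minpoly.isIntegrallyClosed_eq_field_fractions' F hint
      rw [h1, Polynomial.coeff_map]
      exact ((minpoly (U k) z).coeff j).2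
  · intro k V hV
    obtain ⟨i, hi⟩ := (hex k).1 V hV
    exact ⟨i.1, i.2, hi⟩
  · intro i
    exact (hex (σ i)).2.2.1 ⟨i, rfl⟩
  · intro i
    exact (hex (σ i)).2.2.2 ⟨i, rfl⟩

end Main

end Fermat.Agent.H83.SS2
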