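import Fermat.Agent.H83.SS2.ExhaustHom
import Fermat.Agent.H11.SS2.Val3Defs

/-!
# P-SS2 row 899 (SS2-C2 VAL3), route A adapter, abstract part 1 (helper83)

Mathlib + `H11.SS2.Val3Defs` + EXHAUST.  `φ : K →+* L` a field embedding of finite degree in
characteristic zero, `O` a discrete valuation subring of `K` with uniformiser `π`.

* `split_along` : two distinct valuation subrings `W₁, W₂` of `L` above `O` with
  `φ π / t i ^ e i ∈ W i`, `t i ∈ 𝔪_{W i}` and `[L : K] ≤ e₁ + e₂` are ALL the valuation subrings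
  above `O`, `t i` is a uniformiser of `W i`, `φ π / t i ^ e i` is a unit of `W i` and the
  residue degrees are one (`ResOneAlong`).
* `insep_along` : one valuation subring `W` above `O` with the residues of `1, z, …, z^(n-1)`
  independent and `[L : K] ≤ n` is the ONLY valuation subring above `O`, `φ π` is a uniformiser
  of `W` and the residues of `1, z, …, z^(n-1)` span.
* `frob_along` : if moreover `n = q` is a prime number, `q ∈ 𝔪_W` and `z^q ≡ φ b₀`, then every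
  `q`-th power of an element of `W` is congruent to an element of `φ O` (`InsepAlong`).
-/

set_option autoImplicit false
set_option linter.unusedSectionVars false
set_option linter.style.haveILetI false

noncomputable section

namespace Fermat.Agent.H83.SS2

open Fermat.Agent.H11.SS2

section Along

variable {K L : Type} [Field K] [Field L] (φ : K →+* L)

theorem map_mem_iff_of_comap {V : ValuationSubring L} {O : ValuationSubring K}
    (hV : V.comap φ = O) (x : K) : φ x ∈ V ↔ x ∈ O := by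
  rw [← hV]
  exact Iff.rfl

theorem map_mem_nonunits_iff_of_comap {V : ValuationSubring L} {O : ValuationSubring K}
    (hV : V.comap φ = O) (x : K) : φ x ∈ V.nonunits ↔ x ∈ O.nonunits := by
  letI : Algebra K L := φ.toAlgebra
  exact algebraMap_mem_nonunits_iff_of_comap (K := K) (L := L) hV x

variable [CharZero K]

/-- Two branches of residue degree one. -/
theorem split_along
    (hfin : @FiniteDimensional K L _ _ (@Algebra.toModule K L _ _ φ.toAlgebra))
    {O : ValuationSubring K} (hO : IsPrincipalIdealRing O) {π : K} (hπ : DKUnif O π)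
    {W₁ W₂ : ValuationSubring L} (hne : W₁ ≠ W₂) (h₁ : W₁.comap φ = O) (h₂ : W₂.comap φ = O)
    (e₁ e₂ : ℕ) {t₁ t₂ : L} (ht₁ : t₁ ∈ W₁.nonunits) (ht₁0 : t₁ ≠ 0)
    (hu₁ : φ π / t₁ ^ e₁ ∈ W₁) (ht₂ : t₂ ∈ W₂.nonunits) (ht₂0 : t₂ ≠ 0)
    (hu₂ : φ π / t₂ ^ e₂ ∈ W₂)
    (hsum : @Module.finrank K L _ _ (@Algebra.toModule K L _ _ φ.toAlgebra) ≤ e₁ + e₂) :
    (∀ V : ValuationSubring L, V.comap φ = O → V = W₁ ∨ V = W₂) ∧
    DKUnif W₁ t₁ ∧ DKUnif W₂ t₂ ∧ VUnit W₁ (φ π / t₁ ^ e₁) ∧ VUnit W₂ (φ π / t₂ ^ e₂) ∧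
    ResOneAlong φ O W₁ ∧ ResOneAlong φ O W₂ := by
  obtain ⟨hπ0, hπm, hπu⟩ := hπ
  have hW : Function.Injective ![W₁, W₂] := by
    intro i j hij
    fin_cases i <;> fin_cases j
    · rfl
    · exact absurd hij hne
    · exact absurd hij.symm hne
    · rfl
  have hWO : ∀ i, (![W₁, W₂] i).comap φ = O := by
    intro i
    fin_cases i
    · exact h₁
    · exact h₂
  have ht : ∀ i, ![t₁, t₂] i ∈ (![W₁, W₂] i).nonunits := by
    intro i
    fin_cases i
    · exact ht₁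
    · exact ht₂
  have ht0 : ∀ i, ![t₁, t₂] i ≠ 0 := by
    intro i
    fin_cases i
    · exact ht₁0
    · exact ht₂0
  have hu : ∀ i, φ π / ![t₁, t₂] i ^ ![e₁, e₂] i ∈ ![W₁, W₂] i := by
    intro i
    fin_cases i
    · exact hu₁
    · exact hu₂
  have hb : ∀ (i : Fin 2) (j : Fin ((fun _ : Fin 2 => 1) i)),
      (fun (_ : Fin 2) (_ : Fin 1) => (1 : L)) i j ∈ ![W₁, W₂] i := fun i _ => (![W₁, W₂] i).one_mem
  have hind : ∀ (i : Fin 2) (c : Fin ((fun _ : Fin 2 => 1) i) → K), (∀ j, c j ∈ O) →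
      (∑ j, φ (c j) * (fun (_ : Fin 2) (_ : Fin 1) => (1 : L)) i j) ∈ (![W₁, W₂] i).nonunits →
      ∀ j, c j ∈ O.nonunits := by
    intro i c _ hc j
    have hj : j = (0 : Fin 1) := Subsingleton.elim _ _
    rw [Fin.sum_univ_one, mul_one] at hc
    rw [hj]
    exact (map_mem_nonunits_iff_of_comap φ (hWO i) _).1 hc
  have hsum' : @Module.finrank K L _ _ (@Algebra.toModule K L _ _ φ.toAlgebra)
      ≤ ∑ i, ![e₁, e₂] i * (fun _ : Fin 2 => 1) i := by
    rw [Fin.sum_univ_two]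
    simpa using hsum
  obtain ⟨hall, hunif, hres⟩ := exhaust_ringHom φ hfin hO hπ0 hπm hπu ![W₁, W₂] ![e₁, e₂]
    (fun _ => 1) hW hWO ![t₁, t₂] ht ht0 hu (fun _ _ => 1) hb hind hsum'
  have hres' : ∀ i : Fin 2, ResOneAlong φ O (![W₁, W₂] i) := by
    intro i w hw
    obtain ⟨c, hc, hcw⟩ := hres i w hw
    refine ⟨c 0, hc 0, ?_⟩
    rw [Fin.sum_univ_one, mul_one] at hcw
    exact hcw
  refine ⟨?_, ⟨ht₁0, ht₁, (hunif 0).1⟩, ⟨ht₂0, ht₂, (hunif 1).1⟩, ⟨hu₁, (hunif 0).2⟩,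
    ⟨hu₂, (hunif 1).2⟩, hres' 0, hres' 1⟩
  intro V hV
  obtain ⟨i, hi⟩ := hall V hV
  fin_cases i
  · exact Or.inl hi
  · exact Or.inr hi

/-- One branch with residue degree `n`. -/
theorem insep_along
    (hfin : @FiniteDimensional K L _ _ (@Algebra.toModule K L _ _ φ.toAlgebra))
    {O : ValuationSubring K} (hO : IsPrincipalIdealRing O) {π : K} (hπ : DKUnif O π)
    {W : ValuationSubring L} (hW : W.comap φ = O) (n : ℕ) {z : L} (hz : z ∈ W)
    (hind : ∀ c : Fin n → K, (∀ j, c j ∈ O) →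
      (∑ j, φ (c j) * z ^ (j : ℕ)) ∈ W.nonunits → ∀ j, c j ∈ O.nonunits)
    (hsum : @Module.finrank K L _ _ (@Algebra.toModule K L _ _ φ.toAlgebra) ≤ n) :
    (∀ V : ValuationSubring L, V.comap φ = O → V = W) ∧ DKUnif W (φ π) ∧
    (∀ w ∈ W, ∃ c : Fin n → K, (∀ j, c j ∈ O) ∧
      w - ∑ j, φ (c j) * z ^ (j : ℕ) ∈ W.nonunits) := by
  obtain ⟨hπ0, hπm, hπu⟩ := hπ
  have hφπ0 : φ π ≠ 0 := (map_ne_zero φ).2 hπ0
  have hφπ : φ π ∈ W.nonunits := (map_mem_nonunits_iff_of_comap φ hW _).2 hπm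
  have hsum' : @Module.finrank K L _ _ (@Algebra.toModule K L _ _ φ.toAlgebra)
      ≤ ∑ i : Fin 1, (fun _ : Fin 1 => 1) i * (fun _ : Fin 1 => n) i := by
    rw [Fin.sum_univ_one]
    simpa using hsum
  obtain ⟨hall, hunif, hres⟩ := exhaust_ringHom φ hfin hO hπ0 hπm hπu (fun _ : Fin 1 => W)
    (fun _ => 1) (fun _ => n) (fun i j _ => Subsingleton.elim i j) (fun _ => hW)
    (fun _ => φ π) (fun _ => hφπ) (fun _ => hφπ0)
    (fun _ => by rw [pow_one, div_self hφπ0]; exact W.one_mem)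
    (fun _ j => z ^ (j : ℕ)) (fun _ j => W.pow_mem hz _) (fun _ => hind) hsum'
  refine ⟨?_, ⟨hφπ0, hφπ, (hunif 0).1⟩, hres 0⟩
  intro V hV
  obtain ⟨i, hi⟩ := hall V hV
  exact hi

end Along

end Fermat.Agent.H83.SS2
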