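import Fermat.Agent.H83.SS2.ModelIndep
import Fermat.Agent.H83.SS2.Val3Along

/-!
# P-SS2 row 899 (SS2-C2 VAL3), route A adapter, concrete part 3 (helper83):
transport by the Atkin-Lehner involution `W_{q²}`

`W (H2 - H) = -(H2 - H)`; the residue extension of `V02 = W(V20)` along `α`:

* `al2_sZ` : `W Z = -Z`;
* `indep_alpha` **(I-α)**, `cong_alpha` **(F-α)** : the `W`-transports of
  `indep_beta`, `cong_beta`.
-/

set_option autoImplicit false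
set_option linter.unusedSectionVars false
set_option linter.style.haveILetI false

noncomputable section

namespace Fermat.Agent.H83.SS2

open ModularCurve
open Fermat.Agent.H22.KL Fermat.Agent.H7.SS Fermat.Agent.H7.SS2 Fermat.Agent.H66
open Fermat.Agent.H65 Fermat.Agent.H34.SS Fermat.Agent.H86.SS2 Fermat.Agent.H8.SS
open Fermat.Agent.H82.SS
open Fermat.Agent.H55.SS (rangeVal toRangeVal isUnit_toRangeVal_iff)

section AL2

variable (K₁ : Type) [Field K₁] [Algebra ℚ K₁] (M' q : ℕ) [NeZero M'] [NeZero q]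
  (Wq : ModelField K₁ (M' * q) ≃ₐ[K₁] ModelField K₁ (M' * q))
  (W : ModelField K₁ (M' * q * q) ≃ₐ[K₁] ModelField K₁ (M' * q * q))

/-- `W (H2 - H) = -(H2 - H)`. -/
theorem al2_sZ (hAL : IsAL2 K₁ M' q Wq W) (h4 : 4 ∣ M') (Z : ModelField K₁ (M' * q * q))
    (hZ : (Z : LaurentSeries K₁) = sZ K₁ q) : W Z = -Z := by
  set h : ModelField K₁ M' := ⟨h4S K₁, h4S_mem_laurentBaseChange K₁ M' h4⟩ with hh
  have hZeq : Z = heckeBetaBar K₁ (M' * q) q (heckeBetaBar K₁ M' q h) -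
      heckeAlphaBar K₁ (M' * q) q (heckeAlphaBar K₁ M' q h) := by
    apply Subtype.ext
    rw [hZ]
    show sZ K₁ q = ((heckeBetaBar K₁ (M' * q) q (heckeBetaBar K₁ M' q h) :
        ModelField K₁ (M' * q * q)) : LaurentSeries K₁) -
      ((heckeAlphaBar K₁ (M' * q) q (heckeAlphaBar K₁ M' q h) :
        ModelField K₁ (M' * q * q)) : LaurentSeries K₁)
    rw [coe_heckeBetaBar, coe_heckeBetaBar, coe_heckeAlphaBar, coe_heckeAlphaBar]
    rfl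
  rw [hZeq, map_sub, hAL.beta, hAL.alpha, hAL.al.2, hAL.al.1, neg_sub]

end AL2

section Alpha

variable (K₁ : Type) [Field K₁] [Algebra ℚ K₁] (A₀ : Type) [CommRing A₀] [IsDomain A₀]
  [IsDiscreteValuationRing A₀] [Algebra A₀ K₁] [IsFractionRing A₀ K₁] (M' q : ℕ) [NeZero M']
  [NeZero q]
  (Wq : ModelField K₁ (M' * q) ≃ₐ[K₁] ModelField K₁ (M' * q))
  (W : ModelField K₁ (M' * q * q) ≃ₐ[K₁] ModelField K₁ (M' * q * q))

theorem mem_V01_iff (x : ModelField K₁ (M' * q)) :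
    x ∈ V01 K₁ A₀ M' q Wq ↔ Wq x ∈ gaussV K₁ A₀ (M' * q) := Iff.rfl

theorem mem_V02_iff (x : ModelField K₁ (M' * q * q)) :
    x ∈ V02 K₁ A₀ M' q W ↔ W x ∈ gaussV K₁ A₀ (M' * q * q) := Iff.rfl

theorem mem_nonunits_V01_iff (x : ModelField K₁ (M' * q)) :
    x ∈ (V01 K₁ A₀ M' q Wq).nonunits ↔ Wq x ∈ (gaussV K₁ A₀ (M' * q)).nonunits :=
  (map_mem_nonunits_iff_of_comap
    (Wq : ModelField K₁ (M' * q) →+* ModelField K₁ (M' * q)) rfl x).symm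

theorem mem_nonunits_V02_iff (x : ModelField K₁ (M' * q * q)) :
    x ∈ (V02 K₁ A₀ M' q W).nonunits ↔ W x ∈ (gaussV K₁ A₀ (M' * q * q)).nonunits :=
  (map_mem_nonunits_iff_of_comap
    (W : ModelField K₁ (M' * q * q) →+* ModelField K₁ (M' * q * q)) rfl x).symm

/-- **(I-α)**: the residues of `1, Z, …, Z^(q-1)` at `V02` are independent over the residue
field of `V01` along `α`. -/
theorem indep_alpha (hAL : IsAL2 K₁ M' q Wq W) (h4 : 4 ∣ M') (hq : q.Prime)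
    (Z : ModelField K₁ (M' * q * q)) (hZ : (Z : LaurentSeries K₁) = sZ K₁ q)
    (c : Fin q → ModelField K₁ (M' * q)) (hc : ∀ j, c j ∈ V01 K₁ A₀ M' q Wq)
    (h : (∑ j, heckeAlphaBar K₁ (M' * q) q (c j) * Z ^ (j : ℕ)) ∈
      (V02 K₁ A₀ M' q W).nonunits) :
    ∀ j, c j ∈ (V01 K₁ A₀ M' q Wq).nonunits := by
  have hWZ := al2_sZ K₁ M' q Wq W hAL h4 Z hZ
  rw [mem_nonunits_V02_iff, map_sum] at h
  have h' : (∑ j : Fin q, heckeBetaBar K₁ (M' * q) q ((-1) ^ (j : ℕ) * Wq (c j)) *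
      Z ^ (j : ℕ)) ∈ (gaussV K₁ A₀ (M' * q * q)).nonunits := by
    have e : ∑ j : Fin q, heckeBetaBar K₁ (M' * q) q ((-1) ^ (j : ℕ) * Wq (c j)) * Z ^ (j : ℕ)
        = ∑ j : Fin q, W (heckeAlphaBar K₁ (M' * q) q (c j) * Z ^ (j : ℕ)) := by
      refine Finset.sum_congr rfl fun j _ => ?_
      rw [map_mul W, map_pow W, hWZ, hAL.alpha, map_mul (heckeBetaBar K₁ (M' * q) q),
        map_pow (heckeBetaBar K₁ (M' * q) q), map_neg, map_one, neg_pow Z]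
      ring
    rw [e]
    exact h
  have hc' : ∀ j : Fin q, (-1) ^ (j : ℕ) * Wq (c j) ∈ gaussV K₁ A₀ (M' * q) := fun j =>
    (gaussV K₁ A₀ (M' * q)).mul_mem _ _
      ((gaussV K₁ A₀ (M' * q)).pow_mem
        ((gaussV K₁ A₀ (M' * q)).neg_mem _ (gaussV K₁ A₀ (M' * q)).one_mem) _)
      ((mem_V01_iff K₁ A₀ M' q Wq _).1 (hc j))
  have hall := indep_beta K₁ A₀ (M' * q) q hq Z hZ _ hc' h'
  intro j
  rw [mem_nonunits_V01_iff]
  have h1 := mul_mem_nonunits (gaussV K₁ A₀ (M' * q)) (hall j)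
    ((gaussV K₁ A₀ (M' * q)).pow_mem
      ((gaussV K₁ A₀ (M' * q)).neg_mem _ (gaussV K₁ A₀ (M' * q)).one_mem) (j : ℕ))
  have e2 : (-1 : ModelField K₁ (M' * q)) ^ (j : ℕ) * Wq (c j) * (-1) ^ (j : ℕ) = Wq (c j) := by
    have : ((-1 : ModelField K₁ (M' * q)) ^ (j : ℕ)) * (-1) ^ (j : ℕ) = 1 := by
      rw [← mul_pow]
      simp
    calc (-1 : ModelField K₁ (M' * q)) ^ (j : ℕ) * Wq (c j) * (-1) ^ (j : ℕ)
        = Wq (c j) * ((-1) ^ (j : ℕ) * (-1) ^ (j : ℕ)) := by ring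
      _ = Wq (c j) := by rw [this, mul_one]
  rw [e2] at h1
  exact h1

/-- **(F-α)**: `Z^q ≡ α b₀` modulo `𝔪_{V02}` for some `b₀ ∈ V01` (`b₀ = W_q⁻¹ Y₁`, up to
sign). -/
theorem cong_alpha [Fact q.Prime] (hAL : IsAL2 K₁ M' q Wq W) (h4 : 4 ∣ M') (hq2 : q ≠ 2)
    (hqA : ¬ IsUnit ((q : ℕ) : A₀))
    (Y₁ : ModelField K₁ (M' * q)) (hY : (Y₁ : LaurentSeries K₁) = sY1 K₁ q)
    (Z : ModelField K₁ (M' * q * q)) (hZ : (Z : LaurentSeries K₁) = sZ K₁ q) :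
    ∃ b₀ ∈ V01 K₁ A₀ M' q Wq, Z ^ q - heckeAlphaBar K₁ (M' * q) q b₀ ∈
      (V02 K₁ A₀ M' q W).nonunits := by
  have hq : q.Prime := Fact.out
  have hodd : Odd q := hq.odd_of_ne_two hq2
  have hWZ := al2_sZ K₁ M' q Wq W hAL h4 Z hZ
  refine ⟨Wq.symm Y₁, ?_, ?_⟩
  · rw [mem_V01_iff, AlgEquiv.apply_symm_apply]
    exact sY1_mem_gaussV K₁ A₀ q (M' * q) Y₁ hY
  · rw [mem_nonunits_V02_iff, map_sub, map_pow, hWZ, hAL.alpha, AlgEquiv.apply_symm_apply,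
      hodd.neg_pow]
    have := (gaussV K₁ A₀ (M' * q * q)).nonunits.neg_mem
      (cong_beta K₁ A₀ (M' * q) q hq2 hqA Y₁ hY Z hZ)
    rw [neg_add] at this
    rw [sub_eq_add_neg]
    exact this

end Alpha

end Fermat.Agent.H83.SS2
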