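import Fermat.Agent.H83.SS2.ModelRedMap
import Fermat.Agent.H3.SSTwistCore
import Fermat.Agent.H90.SS2.ModelRed

/-!
# P-SS2 row 899 (SS2-C2 VAL3), route A adapter, concrete part 2 (helper83):
the residue extension of `V20` along `β`

Level `L = M' q`, `E₁ = ModelField K₁ L`, `E₂ = ModelField K₁ (L q)`, `β : E₁ → E₂` (`t ↦ t^q`),
`V10 = gaussV K₁ A₀ L`, `V20 = gaussV K₁ A₀ (L q)`, `Z = H2 - H`.

* `indep_beta` **(I-β)** : if `∑_{j<q} β(c j) Z^j ∈ 𝔪_{V20}` with `c j ∈ V10`, then all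
  `c j ∈ 𝔪_{V10}` (the residues of `1, Z, …, Z^(q-1)` are independent over the residue field of
  `V10` embedded by `β`);
* `cong_beta` **(F-β)** : `Z^q + β Y₁ ∈ 𝔪_{V20}` (`Y₁ = H - H1^q`).
-/

set_option autoImplicit false
set_option linter.unusedSectionVars false
set_option linter.style.haveILetI false

noncomputable section

namespace Fermat.Agent.H83.SS2

open ModularCurve
open Fermat.Agent.H22.KL Fermat.Agent.H7.SS Fermat.Agent.H7.SS2 Fermat.Agent.H66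
open Fermat.Agent.H65 Fermat.Agent.H34.SS Fermat.Agent.H86.SS2 Fermat.Agent.H8.SS
open Fermat.Agent.H55.SS (rangeVal toRangeVal isUnit_toRangeVal_iff)

theorem sZ_coeff_neg_one (k : Type) [Field k] (q : ℕ) [NeZero q] (hq : 2 ≤ q) :
    (sZ k q).coeff (-1) = -1 := by
  have hnd : ¬ (q : ℤ) ∣ (-1 : ℤ) := Fermat.Agent.H90.SS2Red.not_dvd_neg_one hq
  have h2 : (sH2 k q).coeff (-1) = 0 := by
    unfold sH2
    exact qExpand_coeff_of_not_dvd q _ hnd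
  have h1 : (sH k).coeff (-1) = 1 := h4S_coeff_neg_one k
  unfold sZ
  rw [HahnSeries.coeff_sub, h2, h1, zero_sub]

section Beta

variable (K₁ : Type) [Field K₁] [Algebra ℚ K₁] (A₀ : Type) [CommRing A₀] [IsDomain A₀]
  [IsDiscreteValuationRing A₀] [Algebra A₀ K₁] [IsFractionRing A₀ K₁] (L q : ℕ) [NeZero L]
  [NeZero q]

/-- An element with expansion `Z = H2 - H` lies in the Gauss valuation ring. -/
theorem sZ_mem_gaussV (N : ℕ) (Z : ModelField K₁ N) (hZ : (Z : LaurentSeries K₁) = sZ K₁ q) :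
    Z ∈ gaussV K₁ A₀ N :=
  mem_gaussV_of_intSeries K₁ A₀ N Z (sZ ℤ q) (by rw [hZ, coeffMap_sZ])

theorem mredHom_sZ (N : ℕ) (Z : ModelField K₁ N) (hZ : (Z : LaurentSeries K₁) = sZ K₁ q) :
    mredHom K₁ A₀ N ⟨Z, sZ_mem_gaussV K₁ A₀ q N Z hZ⟩ = sZ _ q := by
  rw [mredHom_of_intSeries K₁ A₀ N _ (sZ ℤ q) (by rw [coeffMap_sZ]; exact hZ), coeffMap_sZ]

theorem sY1_mem_gaussV (N : ℕ) (Y : ModelField K₁ N) (hY : (Y : LaurentSeries K₁) = sY1 K₁ q) :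
    Y ∈ gaussV K₁ A₀ N :=
  mem_gaussV_of_intSeries K₁ A₀ N Y (sY1 ℤ q) (by rw [hY, coeffMap_sY1])

theorem mredHom_sY1 (N : ℕ) (Y : ModelField K₁ N) (hY : (Y : LaurentSeries K₁) = sY1 K₁ q) :
    mredHom K₁ A₀ N ⟨Y, sY1_mem_gaussV K₁ A₀ q N Y hY⟩ = sY1 _ q := by
  rw [mredHom_of_intSeries K₁ A₀ N _ (sY1 ℤ q) (by rw [coeffMap_sY1]; exact hY), coeffMap_sY1]

/-- **(I-β)**: the residues of `1, Z, …, Z^(q-1)` at `V20` are independent over the residue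
field of `V10` along `β`. -/
theorem indep_beta (hq : q.Prime) (Z : ModelField K₁ (L * q))
    (hZ : (Z : LaurentSeries K₁) = sZ K₁ q)
    (c : Fin q → ModelField K₁ L) (hc : ∀ j, c j ∈ gaussV K₁ A₀ L)
    (h : (∑ j, heckeBetaBar K₁ L q (c j) * Z ^ (j : ℕ)) ∈ (gaussV K₁ A₀ (L * q)).nonunits) :
    ∀ j, c j ∈ (gaussV K₁ A₀ L).nonunits := by
  set ZV : ↥(gaussV K₁ A₀ (L * q)) := ⟨Z, sZ_mem_gaussV K₁ A₀ q (L * q) Z hZ⟩ with hZV
  set S : ↥(gaussV K₁ A₀ (L * q)) :=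
    ∑ j : Fin q, (⟨heckeBetaBar K₁ L q (c j), beta_mem_gaussV K₁ A₀ L q (hc j)⟩ :
      ↥(gaussV K₁ A₀ (L * q))) * ZV ^ (j : ℕ) with hS
  have hScoe : ((S : ↥(gaussV K₁ A₀ (L * q))) : ModelField K₁ (L * q)) =
      ∑ j, heckeBetaBar K₁ L q (c j) * Z ^ (j : ℕ) := by
    rw [hS, AddSubmonoidClass.coe_finsetSum]
    rfl
  have hS0 : mredHom K₁ A₀ (L * q) S = 0 := by
    rw [mredHom_eq_zero_iff, hScoe]
    exact h
  have hsum : ∑ j : Fin q, qExpand _ q (mredHom K₁ A₀ L ⟨c j, hc j⟩) * sZ _ q ^ (j : ℕ) = 0 := by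
    rw [← hS0, hS, map_sum]
    refine Finset.sum_congr rfl fun j _ => ?_
    rw [map_mul, map_pow, hZV, mredHom_sZ K₁ A₀ q (L * q) Z hZ,
      ← mredHom_beta K₁ A₀ L q ⟨c j, hc j⟩]
  have hnd : ¬ (q : ℤ) ∣ (-1 : ℤ) := Fermat.Agent.H90.SS2Red.not_dvd_neg_one hq.two_le
  have hcoeff : (sZ (IsLocalRing.ResidueField ↥(rangeVal A₀ K₁)) q).coeff (-1) ≠ 0 := by
    rw [sZ_coeff_neg_one _ q hq.two_le]
    exact neg_ne_zero.2 one_ne_zero
  have hall := Fermat.Agent.H3.SSTwist.pow_independent q hq hnd hcoeff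
    (fun j => mredHom K₁ A₀ L ⟨c j, hc j⟩) hsum
  intro j
  exact (mredHom_eq_zero_iff K₁ A₀ L ⟨c j, hc j⟩).1 (hall j)

end Beta

section Frob

variable (K₁ : Type) [Field K₁] [Algebra ℚ K₁] (A₀ : Type) [CommRing A₀] [IsDomain A₀]
  [IsDiscreteValuationRing A₀] [Algebra A₀ K₁] [IsFractionRing A₀ K₁] (L q : ℕ) [NeZero L]
  [NeZero q]

/-- `q = 0` in the residue field. -/
theorem natCast_residue_eq_zero (hqA : ¬ IsUnit ((q : ℕ) : A₀)) :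
    ((q : ℕ) : IsLocalRing.ResidueField ↥(rangeVal A₀ K₁)) = 0 := by
  have h1 : ¬ IsUnit (toRangeVal A₀ K₁ ((q : ℕ) : A₀)) :=
    fun h => hqA ((isUnit_toRangeVal_iff A₀ K₁ _).1 h)
  have h2 : IsLocalRing.residue ↥(rangeVal A₀ K₁) (toRangeVal A₀ K₁ ((q : ℕ) : A₀)) = 0 := by
    rw [IsLocalRing.residue_eq_zero_iff, IsLocalRing.mem_maximalIdeal, mem_nonunits_iff]
    exact h1
  rw [map_natCast, map_natCast] at h2
  exact h2

/-- `X1 = H1 - H^q` vanishes in characteristic `q`. -/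
theorem sX1_eq_zero_of_char [Fact q.Prime] (hq2 : q ≠ 2) (k : Type) [Field k]
    (hk : ((q : ℕ) : k) = 0) : sX1 k q = 0 := by
  obtain ⟨-, -, δ, hδ, -, -⟩ := Fermat.Agent.H90.SS2Red.modelRed q hq2
  have h1 := congrArg (coeffMap (Int.castRingHom k)) hδ
  rw [coeffMap_sX1, map_mul, map_natCast] at h1
  have hq0 : ((q : ℕ) : LaurentSeries k) = 0 := by
    rw [← map_natCast (algebraMap k (LaurentSeries k)), hk, map_zero]
  rw [h1, hq0, zero_mul]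

/-- **(F-β)**: `Z^q + β Y₁ ∈ 𝔪_{V20}`. -/
theorem cong_beta [Fact q.Prime] (hq2 : q ≠ 2) (hqA : ¬ IsUnit ((q : ℕ) : A₀))
    (Y₁ : ModelField K₁ L) (hY : (Y₁ : LaurentSeries K₁) = sY1 K₁ q)
    (Z : ModelField K₁ (L * q)) (hZ : (Z : LaurentSeries K₁) = sZ K₁ q) :
    Z ^ q + heckeBetaBar K₁ L q Y₁ ∈ (gaussV K₁ A₀ (L * q)).nonunits := by
  have hq : q.Prime := Fact.out
  have hk := natCast_residue_eq_zero K₁ A₀ q hqA
  haveI : CharP (LaurentSeries (IsLocalRing.ResidueField ↥(rangeVal A₀ K₁))) q := by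
    refine (CharP.charP_iff_prime_eq_zero hq).2 ?_
    rw [← map_natCast (algebraMap (IsLocalRing.ResidueField ↥(rangeVal A₀ K₁))
      (LaurentSeries (IsLocalRing.ResidueField ↥(rangeVal A₀ K₁)))), hk, map_zero]
  set ZV : ↥(gaussV K₁ A₀ (L * q)) := ⟨Z, sZ_mem_gaussV K₁ A₀ q (L * q) Z hZ⟩ with hZV
  set YV : ↥(gaussV K₁ A₀ L) := ⟨Y₁, sY1_mem_gaussV K₁ A₀ q L Y₁ hY⟩ with hYV
  set T : ↥(gaussV K₁ A₀ (L * q)) :=
    ZV ^ q + (⟨heckeBetaBar K₁ L q Y₁, beta_mem_gaussV K₁ A₀ L q YV.2⟩ :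
      ↥(gaussV K₁ A₀ (L * q))) with hT
  have hT0 : mredHom K₁ A₀ (L * q) T = 0 := by
    have hX := sX1_eq_zero_of_char q hq2 (IsLocalRing.ResidueField ↥(rangeVal A₀ K₁)) hk
    unfold sX1 at hX
    rw [hT, map_add, map_pow, hZV, mredHom_sZ K₁ A₀ q (L * q) Z hZ,
      mredHom_beta K₁ A₀ L q YV, hYV, mredHom_sY1 K₁ A₀ q L Y₁ hY, qExpand_sY1]
    unfold sZ
    rw [sub_pow_char]
    linear_combination hX
  exact (mredHom_eq_zero_iff K₁ A₀ (L * q) T).1 hT0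

end Frob

end Fermat.Agent.H83.SS2
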