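import Fermat.Agent.H34.SS.KtValBridge
import Fermat.Agent.H86.SS2.Emb3Defs

/-!
# P-SS2 row 899 (SS2-C2 VAL3), route A adapter, concrete part 1 (helper83):
the reduction map of the Gauss valuation ring of the model field

`gaussV K₁ A₀ N` (`= vInf K₁ A₀ N = mgVal (rangeVal A₀ K₁) N`) is the Gauss valuation ring of
`q`-expansions of the model field `ModelField K₁ N`; `k₀` the residue field of `A₀`.

* `mredHom K₁ A₀ N : gaussV K₁ A₀ N →+* k₀((t))` : reduction of `q`-expansions;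
* `mredHom_eq_zero_iff` : its kernel is the maximal ideal;
* `mredHom_of_intSeries` : the reduction of an element with integer expansion;
* `beta_mem_gaussV`, `mredHom_beta` : `β` (`t ↦ t^q`) maps `gaussV N` to `gaussV (N q)` and the
  reduction of `β c` is `(reduction of c)(t^q)`;
* `coeffMap_sZ` etc. : base change of the series of `Fermat.Agent.H86.SS2.Emb3Defs`.
-/

set_option autoImplicit false
set_option linter.unusedSectionVars false
set_option linter.style.haveILetI false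

noncomputable section

namespace Fermat.Agent.H83.SS2

open ModularCurve
open Fermat.Agent.H22.KL Fermat.Agent.H7.SS Fermat.Agent.H7.SS2 Fermat.Agent.H66
open Fermat.Agent.H65 Fermat.Agent.H34.SS Fermat.Agent.H86.SS2 Fermat.Agent.H8.SS
open Fermat.Agent.H55.SS (rangeVal toRangeVal)

/-! ### Base change of the series -/

section Series

variable {A B : Type} [CommRing A] [CommRing B] (φ : A →+* B) (q : ℕ) [NeZero q]

theorem coeffMap_sH : coeffMap φ (sH A) = sH B := coeffMap_h4S φ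

theorem coeffMap_sH1 : coeffMap φ (sH1 A q) = sH1 B q := by
  unfold sH1
  rw [coeffMap_qExpand, coeffMap_h4S]

theorem coeffMap_sH2 : coeffMap φ (sH2 A q) = sH2 B q := by
  unfold sH2
  rw [coeffMap_qExpand, coeffMap_qExpand, coeffMap_h4S]

theorem coeffMap_sX1 : coeffMap φ (sX1 A q) = sX1 B q := by
  unfold sX1
  rw [map_sub, map_pow, coeffMap_sH1, coeffMap_sH]

theorem coeffMap_sY1 : coeffMap φ (sY1 A q) = sY1 B q := by
  unfold sY1
  rw [map_sub, map_pow, coeffMap_sH1, coeffMap_sH]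

theorem coeffMap_sZ : coeffMap φ (sZ A q) = sZ B q := by
  unfold sZ
  rw [map_sub, coeffMap_sH2, coeffMap_sH]

theorem qExpand_sH : qExpand A q (sH A) = sH1 A q := rfl

theorem qExpand_sH1 : qExpand A q (sH1 A q) = sH2 A q := rfl

theorem qExpand_sY1 : qExpand A q (sY1 A q) = sH1 A q - sH2 A q ^ q := by
  unfold sY1
  rw [map_sub, map_pow, qExpand_sH, qExpand_sH1]

end Series

/-! ### The reduction map -/

section Red

variable (K₁ : Type) [Field K₁] [Algebra ℚ K₁] (A₀ : Type) [CommRing A₀] [IsDomain A₀]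
  [IsDiscreteValuationRing A₀] [Algebra A₀ K₁] [IsFractionRing A₀ K₁] (N : ℕ)

theorem coe_mem_vGaussRing_of_mem_gaussV {z : ModelField K₁ N} (hz : z ∈ gaussV K₁ A₀ N) :
    (z : LaurentSeries K₁) ∈ vGaussRing (rangeVal A₀ K₁) :=
  (mem_vInf_iff_mem_vGaussRing K₁ A₀ N z).1 hz

theorem mem_gaussV_of_coe_mem_vGaussRing {z : ModelField K₁ N}
    (hz : (z : LaurentSeries K₁) ∈ vGaussRing (rangeVal A₀ K₁)) : z ∈ gaussV K₁ A₀ N :=
  (mem_vInf_iff_mem_vGaussRing K₁ A₀ N z).2 hz

/-- `gaussV → vGaussRing`. -/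
def toGaussRing : ↥(gaussV K₁ A₀ N) →+* ↥(vGaussRing (rangeVal A₀ K₁)) where
  toFun z := ⟨((z : ModelField K₁ N) : LaurentSeries K₁),
    coe_mem_vGaussRing_of_mem_gaussV K₁ A₀ N z.2⟩
  map_one' := rfl
  map_mul' _ _ := rfl
  map_zero' := rfl
  map_add' _ _ := rfl

/-- The reduction of `q`-expansions. -/
def mredHom : ↥(gaussV K₁ A₀ N) →+* LaurentSeries (IsLocalRing.ResidueField ↥(rangeVal A₀ K₁)) :=
  (vGaussRed (rangeVal A₀ K₁)).comp (toGaussRing K₁ A₀ N)

theorem mredHom_apply (z : ↥(gaussV K₁ A₀ N)) :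
    mredHom K₁ A₀ N z = vGaussRed (rangeVal A₀ K₁)
      ⟨((z : ModelField K₁ N) : LaurentSeries K₁),
        coe_mem_vGaussRing_of_mem_gaussV K₁ A₀ N z.2⟩ := rfl

/-- The kernel of the reduction map is the maximal ideal. -/
theorem mredHom_eq_zero_iff (z : ↥(gaussV K₁ A₀ N)) :
    mredHom K₁ A₀ N z = 0 ↔ (z : ModelField K₁ N) ∈ (gaussV K₁ A₀ N).nonunits := by
  constructor
  · intro h
    by_contra hz
    rw [ValuationSubring.mem_nonunits_iff_or] at hz
    push Not at hz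
    obtain ⟨hz0, hzinv⟩ := hz
    have h1 : z * ⟨(z : ModelField K₁ N)⁻¹, hzinv⟩ = 1 := by
      apply Subtype.ext
      exact mul_inv_cancel₀ hz0
    have h2 := congrArg (mredHom K₁ A₀ N) h1
    rw [map_mul, h, zero_mul, map_one] at h2
    exact zero_ne_one h2
  · intro hz
    by_contra h
    rw [mredHom_apply] at h
    have hinv := inv_mem_vGaussRing (rangeVal A₀ K₁) h
    have hinv' : (z : ModelField K₁ N)⁻¹ ∈ gaussV K₁ A₀ N :=
      mem_gaussV_of_coe_mem_vGaussRing K₁ A₀ N hinv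
    rw [ValuationSubring.mem_nonunits_iff_or] at hz
    rcases hz with hz | hz
    · apply h
      have : (⟨((z : ModelField K₁ N) : LaurentSeries K₁),
          coe_mem_vGaussRing_of_mem_gaussV K₁ A₀ N z.2⟩ : vGaussRing (rangeVal A₀ K₁)) = 0 := by
        apply Subtype.ext
        show ((z : ModelField K₁ N) : LaurentSeries K₁) = 0
        rw [hz]
        rfl
      rw [this, map_zero]
    · exact hz hinv'

/-- The reduction of an element whose expansion has coefficients in `A₁`. -/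
theorem mredHom_of_vIota (z : ↥(gaussV K₁ A₀ N)) (a : LaurentSeries ↥(rangeVal A₀ K₁))
    (h : ((z : ModelField K₁ N) : LaurentSeries K₁) = vIota (rangeVal A₀ K₁) a) :
    mredHom K₁ A₀ N z = vRho (rangeVal A₀ K₁) a := by
  rw [mredHom_apply, vGaussRed_eq (rangeVal A₀ K₁) _ a 1 (by rw [map_one]; exact one_ne_zero)
    (by rw [map_one, mul_one]; exact h), map_one, div_one]

theorem coeffMap_intCast_eq_vIota (s : LaurentSeries ℤ) :
    coeffMap (Int.castRingHom K₁) s =
      vIota (rangeVal A₀ K₁) (coeffMap (Int.castRingHom ↥(rangeVal A₀ K₁)) s) := by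
  rw [vIota, coeffMap_coeffMap]
  exact coeffMap_congr (RingHom.ext_int _ _) _

theorem vRho_coeffMap_intCast (s : LaurentSeries ℤ) :
    vRho (rangeVal A₀ K₁) (coeffMap (Int.castRingHom ↥(rangeVal A₀ K₁)) s) =
      coeffMap (Int.castRingHom (IsLocalRing.ResidueField ↥(rangeVal A₀ K₁))) s := by
  rw [vRho, coeffMap_coeffMap]
  exact coeffMap_congr (RingHom.ext_int _ _) _

/-- An element with integer expansion lies in the Gauss valuation ring. -/
theorem mem_gaussV_of_intSeries (z : ModelField K₁ N) (s : LaurentSeries ℤ)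
    (h : (z : LaurentSeries K₁) = coeffMap (Int.castRingHom K₁) s) : z ∈ gaussV K₁ A₀ N := by
  apply mem_gaussV_of_coe_mem_vGaussRing
  rw [h, coeffMap_intCast_eq_vIota K₁ A₀]
  exact vIota_mem_vGaussRing _ _

/-- The reduction of an element with integer expansion. -/
theorem mredHom_of_intSeries (z : ↥(gaussV K₁ A₀ N)) (s : LaurentSeries ℤ)
    (h : ((z : ModelField K₁ N) : LaurentSeries K₁) = coeffMap (Int.castRingHom K₁) s) :
    mredHom K₁ A₀ N z =
      coeffMap (Int.castRingHom (IsLocalRing.ResidueField ↥(rangeVal A₀ K₁))) s := by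
  rw [mredHom_of_vIota K₁ A₀ N z _ (by rw [h, coeffMap_intCast_eq_vIota K₁ A₀]),
    vRho_coeffMap_intCast]

end Red

/-! ### The degeneracy map `β` -/

section Beta

variable (K₁ : Type) [Field K₁] [Algebra ℚ K₁] (A₀ : Type) [CommRing A₀] [IsDomain A₀]
  [IsDiscreteValuationRing A₀] [Algebra A₀ K₁] [IsFractionRing A₀ K₁] (N q : ℕ) [NeZero N]
  [NeZero q]

theorem qExpand_mem_vGaussRing {x : LaurentSeries K₁}
    (hx : x ∈ vGaussRing (rangeVal A₀ K₁)) : qExpand K₁ q x ∈ vGaussRing (rangeVal A₀ K₁) := by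
  obtain ⟨a, b, hb, hab⟩ := hx
  refine ⟨qExpand _ q a, qExpand _ q b, ?_, ?_⟩
  · rw [vRho, coeffMap_qExpand]
    intro h0
    apply hb
    apply qExpand_injective (R := IsLocalRing.ResidueField ↥(rangeVal A₀ K₁)) (N := q)
    rw [map_zero]
    exact h0
  · rw [vIota, coeffMap_qExpand, coeffMap_qExpand, ← map_mul]
    exact congrArg (qExpand K₁ q) hab

theorem vGaussRed_qExpand {x : LaurentSeries K₁}
    (hx : x ∈ vGaussRing (rangeVal A₀ K₁))
    (hx' : qExpand K₁ q x ∈ vGaussRing (rangeVal A₀ K₁)) :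
    vGaussRed (rangeVal A₀ K₁) ⟨qExpand K₁ q x, hx'⟩ =
      qExpand _ q (vGaussRed (rangeVal A₀ K₁) ⟨x, hx⟩) := by
  have hx2 := hx
  obtain ⟨a, b, hb, hab⟩ := hx2
  have hb' : vRho (rangeVal A₀ K₁) (qExpand _ q b) ≠ 0 := by
    rw [vRho, coeffMap_qExpand]
    intro h0
    apply hb
    apply qExpand_injective (R := IsLocalRing.ResidueField ↥(rangeVal A₀ K₁)) (N := q)
    rw [map_zero]
    exact h0
  have hab' : qExpand K₁ q x * vIota (rangeVal A₀ K₁) (qExpand _ q b) =
      vIota (rangeVal A₀ K₁) (qExpand _ q a) := by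
    rw [vIota, coeffMap_qExpand, coeffMap_qExpand, ← map_mul]
    exact congrArg (qExpand K₁ q) hab
  have e1 := vGaussRed_eq (rangeVal A₀ K₁) ⟨qExpand K₁ q x, hx'⟩ (qExpand _ q a)
    (qExpand _ q b) hb' hab'
  have e2 := vGaussRed_eq (rangeVal A₀ K₁) ⟨x, hx⟩ a b hb hab
  have e3 : vRho (rangeVal A₀ K₁) (qExpand _ q a) =
      qExpand _ q (vRho (rangeVal A₀ K₁) a) := by
    rw [vRho, coeffMap_qExpand]
  have e4 : vRho (rangeVal A₀ K₁) (qExpand _ q b) =
      qExpand _ q (vRho (rangeVal A₀ K₁) b) := by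
    rw [vRho, coeffMap_qExpand]
  rw [e1, e2, e3, e4, map_div₀]

theorem beta_mem_gaussV {c : ModelField K₁ N} (hc : c ∈ gaussV K₁ A₀ N) :
    heckeBetaBar K₁ N q c ∈ gaussV K₁ A₀ (N * q) := by
  apply mem_gaussV_of_coe_mem_vGaussRing
  rw [coe_heckeBetaBar]
  exact qExpand_mem_vGaussRing K₁ A₀ q (coe_mem_vGaussRing_of_mem_gaussV K₁ A₀ N hc)

theorem alpha_mem_gaussV {c : ModelField K₁ N} (hc : c ∈ gaussV K₁ A₀ N) :
    heckeAlphaBar K₁ N q c ∈ gaussV K₁ A₀ (N * q) := by
  apply mem_gaussV_of_coe_mem_vGaussRing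
  rw [coe_heckeAlphaBar]
  exact coe_mem_vGaussRing_of_mem_gaussV K₁ A₀ N hc

theorem mredHom_beta (c : ↥(gaussV K₁ A₀ N)) :
    mredHom K₁ A₀ (N * q) ⟨heckeBetaBar K₁ N q c, beta_mem_gaussV K₁ A₀ N q c.2⟩ =
      qExpand _ q (mredHom K₁ A₀ N c) := by
  rw [mredHom_apply, mredHom_apply]
  exact vGaussRed_qExpand K₁ A₀ q (coe_mem_vGaussRing_of_mem_gaussV K₁ A₀ N c.2) _

theorem mredHom_alpha (c : ↥(gaussV K₁ A₀ N)) :
    mredHom K₁ A₀ (N * q) ⟨heckeAlphaBar K₁ N q c, alpha_mem_gaussV K₁ A₀ N q c.2⟩ =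
      mredHom K₁ A₀ N c := by
  have h : ((heckeAlphaBar K₁ N q (c : ModelField K₁ N) : ModelField K₁ (N * q)) :
      LaurentSeries K₁) = ((c : ModelField K₁ N) : LaurentSeries K₁) :=
    coe_heckeAlphaBar N q _
  simp only [mredHom_apply, h]

end Beta

end Fermat.Agent.H83.SS2
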