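import Fermat.Agent.H83.SS2.ModelRedMap
import Fermat.Agent.H83.SS2.GaussTower
import Fermat.Agent.H34.SS.KtValTable
import Fermat.Agent.H83.SS2.Val3Along

/-!
# P-SS2 row 899 (SS2-C2 VAL3), route A adapter, concrete part 4 (helper83):
a valuation above `V10` along `α` is vertical along `β`

Level `L = M' q`, `E₁ = ModelField K₁ L`, `E₂ = ModelField K₁ (L q)`.

* `beta_mem_of_mem_gaussClosure` : if `V` is a valuation subring of `E₂` with `V ∩ α E₁ = V10`,
  then `β (C(j)) ⊆ V`  (`β j = α (j(t^q))`, `j(t^q)` has an integral expansion with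
  transcendental reduction, so `H(j(t^q))` is a unit of `V10` for `H ∉ ϖ A₀[X]`).
* `comap_beta_eq_or` : then `V ∩ β E₁ ∈ {V10, V01}`.
-/

set_option autoImplicit false
set_option linter.unusedSectionVars false
set_option linter.style.haveILetI false

noncomputable section

namespace Fermat.Agent.H83.SS2

open Polynomial ModularCurve
open Fermat.Agent.H22.KL Fermat.Agent.H7.SS Fermat.Agent.H7.SS2 Fermat.Agent.H66
open Fermat.Agent.H65 Fermat.Agent.H34.SS Fermat.Agent.H86.SS2 Fermat.Agent.H8.SS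
open Fermat.Agent.H82.SS Fermat.Agent.H87.KL Fermat.Agent.H55.SS

section Vert

variable (M' q : ℕ) [NeZero M'] [NeZero q]
  (K₁ : Type) [Field K₁] [Algebra ℚ K₁] [FiniteDimensional ℚ K₁]
  (A₀ : Type) [CommRing A₀] [IsDomain A₀] [IsDiscreteValuationRing A₀]
  [Algebra A₀ K₁] [IsFractionRing A₀ K₁]
  [Algebra A₀ (ModelField K₁ (M' * q))] [IsScalarTower A₀ K₁ (ModelField K₁ (M' * q))]

/-- The element `j(t^q)` of level `M' q`. -/
def jqElt : ModelField K₁ (M' * q) :=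
  heckeBetaBar K₁ M' q ⟨coeffEmb K₁ jq, coeffEmb_mem_laurentBaseChange K₁ (by
    have := jqd_mem_full M' (one_dvd M')
    rwa [qExpand_one_apply] at this)⟩

theorem coe_jqElt : ((jqElt M' q K₁ : ModelField K₁ (M' * q)) : LaurentSeries K₁) =
    qExpand K₁ q (coeffEmb K₁ jq) := rfl

/-- `H(j(t^q))` is a unit of `V10` for `H ∉ ϖ A₀[X]`. -/
theorem inv_aeval_jqElt_mem {ϖ : A₀} (hϖ : Irreducible ϖ) {H : A₀[X]} (hH : ¬ C ϖ ∣ H) :
    (aeval (jqElt M' q K₁) H)⁻¹ ∈ gaussV K₁ A₀ (M' * q) := by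
  apply mem_gaussV_of_coe_mem_vGaussRing
  refine gc_core hϖ (jqElt M' q K₁) (qExpand _ q (jqModC _))
    (by rw [coe_jqElt, gc_qExpand_jq]) ?_ _ H hH ?_
  · rw [gc_vRho_qExpand_jq]
    exact gc_transcendental_qExpand_jq _ q
  · by_cases h0 : aeval (jqElt M' q K₁) H = 0
    · rw [h0, zero_mul]
      have := IntX.map (A := A₀) (jqElt M' q K₁) 0
      rwa [map_zero] at this
    · rw [mul_inv_cancel₀ h0]
      have := IntX.map (A := A₀) (jqElt M' q K₁) 1
      rwa [map_one] at this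

theorem aeval_jqElt_mem (H : A₀[X]) : aeval (jqElt M' q K₁) H ∈ gaussV K₁ A₀ (M' * q) := by
  apply mem_gaussV_of_coe_mem_vGaussRing
  exact gc_aeval_mem (jqElt M' q K₁) (qExpand _ q (jqModC _))
    (by rw [coe_jqElt, gc_qExpand_jq]) H

variable (x : ModelField K₁ (M' * q)) (hx : (x : LaurentSeries K₁) = coeffEmb K₁ jq)

include hx in
theorem beta_comp_evX :
    ((heckeBetaBar K₁ (M' * q) q).toRingHom).comp (evX (A := A₀) x) =
      ((heckeAlphaBar K₁ (M' * q) q).toRingHom).comp (evX (A := A₀) (jqElt M' q K₁)) := by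
  apply Polynomial.ringHom_ext
  · intro a
    show heckeBetaBar K₁ (M' * q) q (aeval x (C a)) =
      heckeAlphaBar K₁ (M' * q) q (aeval (jqElt M' q K₁) (C a))
    rw [aeval_C, aeval_C, IsScalarTower.algebraMap_apply A₀ K₁ (ModelField K₁ (M' * q)),
      AlgHom.commutes, AlgHom.commutes]
  · show heckeBetaBar K₁ (M' * q) q (aeval x X) =
      heckeAlphaBar K₁ (M' * q) q (aeval (jqElt M' q K₁) X)
    rw [aeval_X, aeval_X]
    apply Subtype.ext
    rw [coe_heckeBetaBar, coe_heckeAlphaBar, hx, coe_jqElt]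

theorem alpha_mem_of_comap (V : ValuationSubring (ModelField K₁ (M' * q * q)))
    (hV : V.comap (heckeAlphaBar K₁ (M' * q) q).toRingHom = gaussV K₁ A₀ (M' * q))
    (y : ModelField K₁ (M' * q)) (hy : y ∈ gaussV K₁ A₀ (M' * q)) :
    heckeAlphaBar K₁ (M' * q) q y ∈ V := by
  rw [← hV] at hy
  exact (ValuationSubring.mem_comap).1 hy

include hx in
theorem beta_evX_mem (V : ValuationSubring (ModelField K₁ (M' * q * q)))
    (hV : V.comap (heckeAlphaBar K₁ (M' * q) q).toRingHom = gaussV K₁ A₀ (M' * q))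
    (P : A₀[X]) :
    (((heckeBetaBar K₁ (M' * q) q).toRingHom).comp (evX (A := A₀) x)) P ∈ V := by
  rw [beta_comp_evX M' q K₁ A₀ x hx]
  exact alpha_mem_of_comap M' q K₁ A₀ V hV _ (aeval_jqElt_mem M' q K₁ A₀ P)

include hx in
theorem beta_mem_of_intX (V : ValuationSubring (ModelField K₁ (M' * q * q)))
    (hV : V.comap (heckeAlphaBar K₁ (M' * q) q).toRingHom = gaussV K₁ A₀ (M' * q))
    (y : ModelField K₁ (M' * q)) (hint : IntX (A := A₀) x y) :
    (heckeBetaBar K₁ (M' * q) q).toRingHom y ∈ V := by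
  refine mem_of_isIntegralElem V
    (((heckeBetaBar K₁ (M' * q) q).toRingHom).comp (evX (A := A₀) x))
    (beta_evX_mem M' q K₁ A₀ x hx V hV) ?_
  obtain ⟨p, hp, hpy⟩ := hint
  refine ⟨p, hp, ?_⟩
  have h2 := Polynomial.hom_eval₂ p (evX (A := A₀) x)
    ((heckeBetaBar K₁ (M' * q) q).toRingHom) y
  rw [hpy, map_zero] at h2
  exact h2.symm

include hx in
theorem inv_beta_aeval_mem {ϖ : A₀} (hϖ : Irreducible ϖ)
    (V : ValuationSubring (ModelField K₁ (M' * q * q)))
    (hV : V.comap (heckeAlphaBar K₁ (M' * q) q).toRingHom = gaussV K₁ A₀ (M' * q))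
    {H : A₀[X]} (hH : ¬ C ϖ ∣ H) :
    ((heckeBetaBar K₁ (M' * q) q).toRingHom (evX (A := A₀) x H))⁻¹ ∈ V := by
  have e : (heckeBetaBar K₁ (M' * q) q).toRingHom (evX (A := A₀) x H) =
      (heckeAlphaBar K₁ (M' * q) q).toRingHom (evX (A := A₀) (jqElt M' q K₁) H) := by
    have := beta_comp_evX M' q K₁ A₀ x hx
    rw [← RingHom.comp_apply, this, RingHom.comp_apply]
  rw [e, ← map_inv₀]
  exact alpha_mem_of_comap M' q K₁ A₀ V hV _ (inv_aeval_jqElt_mem M' q K₁ A₀ hϖ hH)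

include hx in
/-- `β (C(j)) ⊆ V` for every valuation subring `V` of `E₂` with `V ∩ α E₁ = V10`. -/
theorem beta_mem_of_mem_gaussClosure {ϖ : A₀} (hϖ : Irreducible ϖ)
    (V : ValuationSubring (ModelField K₁ (M' * q * q)))
    (hV : V.comap (heckeAlphaBar K₁ (M' * q) q).toRingHom = gaussV K₁ A₀ (M' * q))
    (z : ModelField K₁ (M' * q)) (hz : z ∈ gaussClosure A₀ (ModelField K₁ (M' * q)) ϖ x) :
    (heckeBetaBar K₁ (M' * q) q).toRingHom z ∈ V := by
  have hxtr : Transcendental A₀ x :=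
    Fermat.Agent.H58.modelTranscendental_jq (M' * q) K₁ A₀ x hx
  obtain ⟨H, hH, hint⟩ := (mem_gaussClosure_iff hxtr ϖ z).mp hz
  have h1 := beta_mem_of_intX M' q K₁ A₀ x hx V hV _ hint
  have h3 := inv_beta_aeval_mem M' q K₁ A₀ x hx hϖ V hV hH
  have hH0 : evX (A := A₀) x H ≠ 0 := by
    intro h0
    have hH0' : H = 0 := by
      by_contra hne
      exact hxtr ⟨H, hne, h0⟩
    exact hH (hH0' ▸ dvd_zero _)
  have hβH0 : (heckeBetaBar K₁ (M' * q) q).toRingHom (evX (A := A₀) x H) ≠ 0 :=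
    (_root_.map_ne_zero _).2 hH0
  have e2 : (heckeBetaBar K₁ (M' * q) q).toRingHom z =
      ((heckeBetaBar K₁ (M' * q) q).toRingHom (evX (A := A₀) x H))⁻¹ *
        (heckeBetaBar K₁ (M' * q) q).toRingHom (aeval x H * z) := by
    rw [map_mul, ← mul_assoc]
    have : (heckeBetaBar K₁ (M' * q) q).toRingHom (aeval x H) =
        (heckeBetaBar K₁ (M' * q) q).toRingHom (evX (A := A₀) x H) := rfl
    rw [this, inv_mul_cancel₀ hβH0, one_mul]
  rw [e2]
  exact V.mul_mem _ _ h3 h1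

variable (hq : q.Prime) (hqM : ¬ q ∣ M') (hqirr : Irreducible ((q : ℕ) : A₀))
  (Wq : ModelField K₁ (M' * q) ≃ₐ[K₁] ModelField K₁ (M' * q))
  (hWq : IsAtkinLehnerModel K₁ M' q Wq)

include hx hq hqM hqirr hWq in
/-- **(C)**: a valuation subring of `E₂` above `V10` along `α` lies above `V10` or `V01` along
`β`. -/
theorem comap_beta_eq_or (V : ValuationSubring (ModelField K₁ (M' * q * q)))
    (hV : V.comap (heckeAlphaBar K₁ (M' * q) q).toRingHom = gaussV K₁ A₀ (M' * q)) :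
    V.comap (heckeBetaBar K₁ (M' * q) q).toRingHom = V10 K₁ A₀ M' q ∨
      V.comap (heckeBetaBar K₁ (M' * q) q).toRingHom = V01 K₁ A₀ M' q Wq := by
  obtain ⟨h0, h1, h2⟩ := isUniformiser_vInf_natCast K₁ A₀ (M' * q) q hqirr
  obtain ⟨-, -, h2'⟩ := isUniformiser_vZero_natCast K₁ A₀ (M' * q) Wq q hqirr
  have hqV : ((q : ℕ) : ModelField K₁ (M' * q)) ∈
      (V.comap (heckeBetaBar K₁ (M' * q) q).toRingHom).nonunits := by
    have e1 : ((q : ℕ) : ModelField K₁ (M' * q)) ∈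
        (V.comap (heckeAlphaBar K₁ (M' * q) q).toRingHom).nonunits := by
      rw [hV]
      exact h1
    have e2 := (map_mem_nonunits_iff_of_comap (heckeAlphaBar K₁ (M' * q) q).toRingHom rfl _).2 e1
    refine (map_mem_nonunits_iff_of_comap (heckeBetaBar K₁ (M' * q) q).toRingHom rfl _).1 ?_
    rw [map_natCast] at e2 ⊢
    exact e2
  rcases le_or_le_of_inf_le (vInf K₁ A₀ (M' * q)) (vZero K₁ A₀ (M' * q) Wq)
    (V.comap (heckeBetaBar K₁ (M' * q) q).toRingHom)
    (fun z hz1 hz2 => ValuationSubring.mem_comap.2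
      (beta_mem_of_mem_gaussClosure M' q K₁ A₀ x hx hqirr V hV z
        (mem_gaussClosure_of_mem_vInf_vZero M' q K₁ A₀ hqirr.not_isUnit ((q : ℕ) : A₀) hqirr x hx
          Wq hWq hq hqM z hz1 hz2)))
    with h | h
  · left
    exact eq_of_le_of_uniformiser _ _ _ h0 h2 h hqV
  · right
    exact eq_of_le_of_uniformiser _ _ _ h0 h2' h hqV

end Vert

end Fermat.Agent.H83.SS2
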