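import Fermat.Agent.H83.SS2.ExhaustCore
import Fermat.Agent.H37.SS2.WeakApprox

/-!
# P-SS2 row 899 (SS2-C2 VAL3): valuation overrings of a finite intersection of discrete
valuation rings (helper83)

Mathlib + helper37's weak approximation.

* `exists_eq_of_forall_mem` : `W i` pairwise distinct discrete valuation subrings of a field `E`
  (finite family), `V ≠ ⊤` a valuation subring containing `⋂ W i`: then `V = W i` for some `i`.
-/

set_option autoImplicit false
set_option linter.unusedSectionVars false
set_option linter.style.haveILetI false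

noncomputable section

namespace Fermat.Agent.H83.SS2

section OverRing

variable {E : Type*} [Field E]

theorem exists_nonunit_ne_zero (W : ValuationSubring E) [IsDiscreteValuationRing W] :
    ∃ τ : E, τ ≠ 0 ∧ τ ∈ W.nonunits := by
  obtain ⟨ϖ, hϖ⟩ := IsDiscreteValuationRing.exists_irreducible W
  refine ⟨(ϖ : E), fun h => hϖ.ne_zero (Subtype.ext h), ?_⟩
  rw [ValuationSubring.coe_mem_nonunits_iff, IsLocalRing.mem_maximalIdeal, mem_nonunits_iff]
  exact hϖ.not_isUnit

/-- A valuation subring `V ≠ ⊤` containing the intersection of finitely many pairwise distinct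
discrete valuation subrings is one of them. -/
theorem exists_eq_of_forall_mem {ι : Type*} [Fintype ι] (W : ι → ValuationSubring E)
    (hW : Function.Injective W) (hdvr : ∀ i, IsDiscreteValuationRing (W i))
    (V : ValuationSubring E) (hVtop : V ≠ ⊤) (hV : ∀ z : E, (∀ i, z ∈ W i) → z ∈ V) :
    ∃ i, V = W i := by
  classical
  by_contra hcon
  have hne : ∀ i, V ≠ W i := fun i h => hcon ⟨i, h⟩
  -- elements `u i ∈ W i ∖ V`
  have hu : ∀ i, ∃ u : E, u ∈ W i ∧ u ∉ V := by
    intro i
    by_contra h
    have hle : W i ≤ V := by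
      intro z hz
      by_contra hzV
      exact h ⟨z, hz, hzV⟩
    haveI := hdvr i
    exact hne i (ValuationSubring.eq_of_le_of_ne_top (W i) hle hVtop).symm
  choose u huW huV using hu
  choose τ hτ0 hτ using fun i => (haveI := hdvr i; exists_nonunit_ne_zero (W i))
  -- the index type is nonempty
  have hnonempty : Nonempty ι := by
    by_contra hemp
    rw [not_nonempty_iff] at hemp
    apply hVtop
    rw [eq_top_iff]
    intro z _
    exact hV z (fun i => (hemp.false i).elim)
  -- approximate idempotents
  have hex : ∀ i, ∃ ε : E, ε - 1 ∈ (W i).nonunits ∧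
      (∀ j, j ≠ i → ε ∈ (W j).nonunits ∧ u i * ε ∈ W j) := by
    intro i
    obtain ⟨g, hg⟩ := Fermat.Agent.H37.SS2.weakApprox_dvr W hW hdvr
      (fun j => if j = i then 1 else 0)
      (fun j => if j = i then τ i else (if u i ∈ W j then τ j else (u i)⁻¹ * τ j))
      (by
        intro j
        by_cases hji : j = i
        · simp only [hji, if_true]
          exact hτ0 i
        · simp only [hji, if_false]
          by_cases huj : u i ∈ W j
          · simp only [huj, if_true]
            exact hτ0 j
          · simp only [huj, if_false]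
            have hu0 : u i ≠ 0 := fun h0 => huj (h0 ▸ (W j).zero_mem)
            exact mul_ne_zero (inv_ne_zero hu0) (hτ0 j))
    refine ⟨g, ?_, ?_⟩
    · obtain ⟨c, hc, hgc⟩ := hg i
      simp only [if_true] at hgc
      rw [hgc]
      exact mul_mem_nonunits (W i) (hτ i) hc
    · intro j hji
      obtain ⟨c, hc, hgc⟩ := hg j
      simp only [hji, if_false, sub_zero] at hgc
      by_cases huj : u i ∈ W j
      · simp only [huj, if_true] at hgc
        have h1 : g ∈ (W j).nonunits := by
          rw [hgc]
          exact mul_mem_nonunits (W j) (hτ j) hc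
        exact ⟨h1, (W j).mul_mem _ _ huj (mem_of_mem_nonunits (W j) h1)⟩
      · simp only [huj, if_false] at hgc
        have hu0 : u i ≠ 0 := fun h0 => huj (h0 ▸ (W j).zero_mem)
        have huinv : (u i)⁻¹ ∈ W j := by
          rcases (W j).mem_or_inv_mem (u i) with h | h
          · exact absurd h huj
          · exact h
        have h1 : g ∈ (W j).nonunits := by
          rw [hgc, mul_assoc, mul_comm]
          exact mul_mem_nonunits (W j)
            (mul_mem_nonunits (W j) (hτ j) hc) huinv
        refine ⟨h1, ?_⟩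
        have h2 : u i * g = τ j * c := by
          rw [hgc, ← mul_assoc, ← mul_assoc, mul_inv_cancel₀ hu0, one_mul]
        rw [h2]
        exact (W j).mul_mem _ _ (mem_of_mem_nonunits (W j) (hτ j)) hc
  choose ε hε1 hε2 using hex
  -- `ε i ∈ W j` for all `i, j`
  have hεW : ∀ i j, ε i ∈ W j := by
    intro i j
    by_cases hji : j = i
    · rw [hji]
      have h1 : ε i = (ε i - 1) + 1 := by ring
      rw [h1]
      exact (W i).add_mem _ _ (mem_of_mem_nonunits (W i) (hε1 i)) (W i).one_mem
    · exact mem_of_mem_nonunits (W j) (hε2 i j hji).1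
  have hεV : ∀ i, ε i ∈ V := fun i => hV _ (hεW i)
  have hsV : ∀ i, u i * ε i ∈ V := by
    intro i
    apply hV
    intro j
    by_cases hji : j = i
    · rw [hji]
      exact (W i).mul_mem _ _ (huW i) (hεW i i)
    · exact (hε2 i j hji).2
  -- the sum of the `ε i` is a unit of every `W j`
  set S : E := ∑ i, ε i with hS
  have hS1 : ∀ j, S - 1 ∈ (W j).nonunits := by
    intro j
    have h1 : S - 1 = (ε j - 1) + ∑ i ∈ Finset.univ.erase j, ε i := by
      rw [hS, ← Finset.add_sum_erase Finset.univ ε (Finset.mem_univ j)]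
      ring
    rw [h1]
    refine (W j).nonunits.add_mem (hε1 j) (sum_mem fun i hi => ?_)
    exact (hε2 i j (Finset.ne_of_mem_erase hi).symm).1
  have hSW : ∀ j, S ∈ W j := by
    intro j
    have h1 : S = (S - 1) + 1 := by ring
    rw [h1]
    exact (W j).add_mem _ _ (mem_of_mem_nonunits (W j) (hS1 j)) (W j).one_mem
  have hSnon : ∀ j, S ∉ (W j).nonunits := by
    intro j hmem
    have h1 : (1 : E) = S - (S - 1) := by ring
    have h2 : (1 : E) ∈ (W j).nonunits := by
      rw [h1]
      exact (W j).nonunits.sub_mem hmem (hS1 j)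
    exact one_notMem_nonunits (W j) h2
  have hS0 : S ≠ 0 := by
    obtain ⟨j⟩ := hnonempty
    intro h0
    exact hSnon j (h0 ▸ zero_mem_nonunits (W j))
  have hSinvV : S⁻¹ ∈ V := hV _ fun j => inv_mem_of_not_mem_nonunits (W j) (hSnon j)
  -- some `ε i` is a unit of `V`
  have hexunit : ∃ i, ε i ∉ V.nonunits := by
    by_contra hall
    have hall' : ∀ i, ε i ∈ V.nonunits := by
      intro i
      by_contra h
      exact hall ⟨i, h⟩
    have h1 : S ∈ V.nonunits := sum_mem fun i _ => hall' i
    have h2 : (1 : E) ∈ V.nonunits := by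
      have : (1 : E) = S * S⁻¹ := (mul_inv_cancel₀ hS0).symm
      rw [this]
      exact mul_mem_nonunits V h1 hSinvV
    exact one_notMem_nonunits V h2
  obtain ⟨i, hi⟩ := hexunit
  have hεinv : (ε i)⁻¹ ∈ V := inv_mem_of_not_mem_nonunits V hi
  have hε0 : ε i ≠ 0 := fun h0 => hi (h0 ▸ zero_mem_nonunits V)
  apply huV i
  have h3 : u i = u i * ε i * (ε i)⁻¹ := by
    rw [mul_assoc, mul_inv_cancel₀ hε0, mul_one]
  rw [h3]
  exact V.mul_mem _ _ (hsV i) hεinv

end OverRing

end Fermat.Agent.H83.SS2
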