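import Fermat.Agent.H83.SS2.Vertical

/-!
# P-SS2 row 899 (SS2-C2 VAL3): the three-branch form (helper83)

Chart language.  `F ⊆ E` finite separable, `[E : F] ≤ 1 + eₘ` and `[E : F] ≤ f_b`.
Level `F`: `C_F(x) = Ua ∩ Ub` for two distinct discrete valuation subrings with uniformisers
`πa`, `πb`.  Level `E`: valuation subrings `Wa ≠ Wm` above `Ua` and `Wb` above `Ub` with

* `πa / Z ^ eₘ ∈ Wm` for some `Z ∈ 𝔪_{Wm}`, `Z ≠ 0`  (`e(Wm | Ua) ≥ eₘ`);
* `1, Y, …, Y ^ (f_b - 1)` have linearly independent residues at `Wb` over the residue field of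
  `Ub`  (`f(Wb | Ub) ≥ f_b`).

Then (`val3`): `C_E(x) = Wa ∩ Wm ∩ Wb`, the three are exactly the vertical valuations of the
chart, they are the only valuation subrings above `Ua`, `Ub`, and all the bounds are equalities.
In P-SS2: along `α`: `(Ua, Ub, Wa, Wm, Wb) = (V10, V01, V20, V11, V02)`, along `β`:
`(V01, V10, V02, V11, V20)`; `eₘ = q - 1`, `f_b = q`.
-/

set_option autoImplicit false
set_option linter.unusedSectionVars false
set_option linter.style.haveILetI false

noncomputable section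

namespace Fermat.Agent.H83.SS2

open Fermat.Agent.H22.KL

section Val3

variable {A : Type} [CommRing A] [IsDomain A]
  {F E : Type} [Field F] [Field E] [Algebra A F] [Algebra A E] [Algebra F E]
  [IsScalarTower A F E] [FiniteDimensional F E] [Algebra.IsSeparable F E]

/-- **VAL3**, abstract three-branch form. -/
theorem val3 {ϖ : A} (hϖ : Prime ϖ) {x : F} (hx : Transcendental A x)
    (em fb : ℕ) (hdega : Module.finrank F E ≤ 1 + em) (hdegb : Module.finrank F E ≤ fb)
    (Ua Ub : ValuationSubring F) (hUa : IsPrincipalIdealRing Ua) (hUb : IsPrincipalIdealRing Ub)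
    (hUab : Ua ≠ Ub)
    (πa πb : F) (hπa0 : πa ≠ 0) (hπa : πa ∈ Ua.nonunits) (hπau : ∀ y ∈ Ua.nonunits, y / πa ∈ Ua)
    (hπb0 : πb ≠ 0) (hπb : πb ∈ Ub.nonunits) (hπbu : ∀ y ∈ Ub.nonunits, y / πb ∈ Ub)
    (hϖ0 : algebraMap A F ϖ ≠ 0)
    (hϖa : algebraMap A F ϖ ∈ Ua.nonunits) (hϖb : algebraMap A F ϖ ∈ Ub.nonunits)
    (hgauss : ∀ z : F, z ∈ gaussClosure A F ϖ x ↔ z ∈ Ua ∧ z ∈ Ub)
    (Wa Wm Wb : ValuationSubring E)
    (hWa : Wa.comap (algebraMap F E) = Ua) (hWm : Wm.comap (algebraMap F E) = Ua)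
    (hWb : Wb.comap (algebraMap F E) = Ub) (hWam : Wa ≠ Wm)
    (Z : E) (hZ : Z ∈ Wm.nonunits) (hZ0 : Z ≠ 0) (hZe : algebraMap F E πa / Z ^ em ∈ Wm)
    (Y : E) (hY : Y ∈ Wb)
    (hYind : ∀ c : Fin fb → F, (∀ j, c j ∈ Ub) →
      (∑ j, algebraMap F E (c j) * Y ^ (j : ℕ)) ∈ Wb.nonunits → ∀ j, c j ∈ Ub.nonunits) :
    (∀ z : E, z ∈ gaussClosure A E ϖ (algebraMap F E x) ↔ z ∈ Wa ∧ z ∈ Wm ∧ z ∈ Wb) ∧
    (∀ V : ValuationSubring E, V.comap (algebraMap F E) = Ua → V = Wa ∨ V = Wm) ∧
    (∀ V : ValuationSubring E, V.comap (algebraMap F E) = Ub → V = Wb) ∧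
    (∀ V : ValuationSubring E, V ≠ ⊤ →
      (∀ z ∈ gaussClosure A E ϖ (algebraMap F E x), z ∈ V) → V = Wa ∨ V = Wm ∨ V = Wb) ∧
    (∀ V : ValuationSubring E, V = Wa ∨ V = Wm ∨ V = Wb →
      V ≠ ⊤ ∧ IsPrincipalIdealRing V ∧
        (∀ z ∈ gaussClosure A E ϖ (algebraMap F E x), z ∈ V) ∧
        algebraMap A E ϖ ∈ V.nonunits) ∧
    ((∀ y ∈ Wa.nonunits, y / algebraMap F E πa ∈ Wa) ∧
      (∀ y ∈ Wm.nonunits, y / Z ∈ Wm) ∧ (algebraMap F E πa / Z ^ em)⁻¹ ∈ Wm ∧
      (∀ y ∈ Wb.nonunits, y / algebraMap F E πb ∈ Wb)) ∧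
    ((∀ z ∈ Wa, ∃ c ∈ Ua, z - algebraMap F E c ∈ Wa.nonunits) ∧
      (∀ z ∈ Wm, ∃ c ∈ Ua, z - algebraMap F E c ∈ Wm.nonunits) ∧
      (∀ z ∈ Wb, ∃ c : Fin fb → F, (∀ j, c j ∈ Ub) ∧
        z - ∑ j, algebraMap F E (c j) * Y ^ (j : ℕ) ∈ Wb.nonunits)) := by
  classical
  -- the families
  let U : Bool → ValuationSubring F := fun k => cond k Ub Ua
  let π : Bool → F := fun k => cond k πb πa
  let W : Bool ⊕ Unit → ValuationSubring E := Sum.elim (fun b => cond b Wm Wa) (fun _ => Wb)
  let σ : Bool ⊕ Unit → Bool := Sum.elim (fun _ => false) (fun _ => true)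
  let e : Bool ⊕ Unit → ℕ := Sum.elim (fun b => cond b em 1) (fun _ => 1)
  let f : Bool ⊕ Unit → ℕ := Sum.elim (fun _ => 1) (fun _ => fb)
  let t : Bool ⊕ Unit → E :=
    Sum.elim (fun b => cond b Z (algebraMap F E πa)) (fun _ => algebraMap F E πb)
  let b : ∀ i, Fin (f i) → E := fun i =>
    match i with
    | Sum.inl _ => fun _ => 1
    | Sum.inr _ => fun j => Y ^ (j : ℕ)
  have hWab : Wa ≠ Wb := by
    intro h
    apply hUab
    rw [← hWa, ← hWb, h]
  have hWmb : Wm ≠ Wb := by
    intro h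
    apply hUab
    rw [← hWm, ← hWb, h]
  have hWinj : Function.Injective W := by
    rintro (b₁ | u₁) (b₂ | u₂) h
    · cases b₁ <;> cases b₂
      · rfl
      · exact absurd h hWam
      · exact absurd h.symm hWam
      · rfl
    · cases b₁
      · exact absurd h hWab
      · exact absurd h hWmb
    · cases b₂
      · exact absurd h.symm hWab
      · exact absurd h.symm hWmb
    · rfl
  have hone : ∀ (V : ValuationSubring E) (O : ValuationSubring F),
      V.comap (algebraMap F E) = O → ∀ c : Fin 1 → F, (∀ j, c j ∈ O) →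
      (∑ j, algebraMap F E (c j) * (1 : E)) ∈ V.nonunits → ∀ j, c j ∈ O.nonunits := by
    intro V O hVO c _ hs j
    rw [Fin.sum_univ_one, mul_one] at hs
    have hj : j = 0 := Subsingleton.elim _ _
    rw [hj]
    exact (algebraMap_mem_nonunits_iff_of_comap hVO _).1 hs
  obtain ⟨h1, h2, h3, h4⟩ := gaussTower hϖ hx U
    (by intro k; cases k; exacts [hUa, hUb]) π
    (by intro k; cases k; exacts [hπa0, hπb0])
    (by intro k; cases k; exacts [hπa, hπb])
    (by intro k; cases k; exacts [hπau, hπbu])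
    (by
      intro z
      rw [hgauss]
      constructor
      · rintro ⟨ha, hb⟩ k
        cases k
        exacts [ha, hb]
      · intro h
        exact ⟨h false, h true⟩)
    W σ e f hWinj
    (by
      rintro (b | u)
      · cases b
        exacts [hWa, hWm]
      · exact hWb)
    t
    (by
      rintro (b | u)
      · cases b
        · exact (algebraMap_mem_nonunits_iff_of_comap hWa _).2 hπa
        · exact hZ
      · exact (algebraMap_mem_nonunits_iff_of_comap hWb _).2 hπb)
    (by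
      rintro (b | u)
      · cases b
        · exact (map_ne_zero _).2 hπa0
        · exact hZ0
      · exact (map_ne_zero _).2 hπb0)
    (by
      rintro (b | u)
      · cases b
        · show algebraMap F E πa / algebraMap F E πa ^ 1 ∈ Wa
          rw [pow_one, div_self ((map_ne_zero _).2 hπa0)]
          exact Wa.one_mem
        · exact hZe
      · show algebraMap F E πb / algebraMap F E πb ^ 1 ∈ Wb
        rw [pow_one, div_self ((map_ne_zero _).2 hπb0)]
        exact Wb.one_mem)
    b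
    (by
      rintro (b | u) j
      · cases b
        exacts [Wa.one_mem, Wm.one_mem]
      · exact Wb.pow_mem hY _)
    (by
      rintro (b | u)
      · cases b
        · exact hone Wa Ua hWa
        · exact hone Wm Ua hWm
      · exact hYind)
    (by
      intro k
      cases k
      · have : (Finset.univ.filter (fun i : Bool ⊕ Unit => σ i = false))
            = {Sum.inl false, Sum.inl true} := by
          ext i
          rcases i with (b | u)
          · cases b <;> simp [σ]
          · simp [σ]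
        rw [this, Finset.sum_pair (by simp)]
        show Module.finrank F E ≤ 1 * 1 + em * 1
        rw [mul_one, mul_one]
        exact hdega
      · have : (Finset.univ.filter (fun i : Bool ⊕ Unit => σ i = true))
            = {Sum.inr ()} := by
          ext i
          rcases i with (b | u)
          · cases b <;> simp [σ]
          · simp [σ]
        rw [this, Finset.sum_singleton]
        show Module.finrank F E ≤ 1 * fb
        rw [one_mul]
        exact hdegb)
  have hgE : ∀ z : E, z ∈ gaussClosure A E ϖ (algebraMap F E x) ↔ z ∈ Wa ∧ z ∈ Wm ∧ z ∈ Wb := by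
    intro z
    rw [h1]
    constructor
    · intro h
      exact ⟨h (Sum.inl false), h (Sum.inl true), h (Sum.inr ())⟩
    · rintro ⟨ha, hm, hb⟩ (b | u)
      · cases b
        exacts [ha, hm]
      · exact hb
  obtain ⟨hv1, hv2⟩ := vertical_of_gauss (ϖ := ϖ) (X := algebraMap F E x) U
    (by intro k; cases k; exacts [hUa, hUb]) hϖ0
    (by intro k; cases k; exacts [hϖa, hϖb]) W σ hWinj
    (by
      rintro (b | u)
      · cases b
        exacts [hWa, hWm]
      · exact hWb) h1
  refine ⟨hgE, ?_, ?_, ?_, ?_, ⟨?_, ?_, ?_, ?_⟩, ⟨?_, ?_, ?_⟩⟩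
  · intro V hV
    obtain ⟨i, hi, hVi⟩ := h2 false V hV
    rcases i with (b | u)
    · cases b
      · exact Or.inl hVi
      · exact Or.inr hVi
    · exact absurd hi (by simp [σ])
  · intro V hV
    obtain ⟨i, hi, hVi⟩ := h2 true V hV
    rcases i with (b | u)
    · exact absurd hi (by simp [σ])
    · exact hVi
  · intro V hVtop hV
    obtain ⟨i, hVi⟩ := hv2 V hVtop hV
    rcases i with (b | u)
    · cases b
      · exact Or.inl hVi
      · exact Or.inr (Or.inl hVi)
    · exact Or.inr (Or.inr hVi)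
  · rintro V (rfl | rfl | rfl)
    · exact hv1 (Sum.inl false)
    · exact hv1 (Sum.inl true)
    · exact hv1 (Sum.inr ())
  · exact (h3 (Sum.inl false)).1
  · exact (h3 (Sum.inl true)).1
  · exact (h3 (Sum.inl true)).2
  · exact (h3 (Sum.inr ())).1
  · intro z hz
    obtain ⟨c, hc, hzc⟩ : ∃ c : Fin 1 → F, (∀ j, c j ∈ Ua) ∧
        z - ∑ j, algebraMap F E (c j) * (1 : E) ∈ Wa.nonunits := h4 (Sum.inl false) z hz
    refine ⟨c 0, hc 0, ?_⟩
    have : ∑ j : Fin 1, algebraMap F E (c j) * (1 : E) = algebraMap F E (c 0) := by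
      rw [Fin.sum_univ_one, mul_one]
    rw [← this]
    exact hzc
  · intro z hz
    obtain ⟨c, hc, hzc⟩ : ∃ c : Fin 1 → F, (∀ j, c j ∈ Ua) ∧
        z - ∑ j, algebraMap F E (c j) * (1 : E) ∈ Wm.nonunits := h4 (Sum.inl true) z hz
    refine ⟨c 0, hc 0, ?_⟩
    have : ∑ j : Fin 1, algebraMap F E (c j) * (1 : E) = algebraMap F E (c 0) := by
      rw [Fin.sum_univ_one, mul_one]
    rw [← this]
    exact hzc
  · intro z hz
    exact h4 (Sum.inr ()) z hz

end Val3

end Fermat.Agent.H83.SS2
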