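import Fermat.Agent.H83.SS2.Val3Along

/-!
# P-SS2 row 899 (SS2-C2 VAL3), route A adapter, abstract part 2 (helper83)

`frob_along` : `W` a valuation subring of `L` above `O` along `φ`, `q` a prime number in `𝔪_W`,
`z ∈ W` with `z^q ≡ φ b₀` modulo `𝔪_W` (`b₀ ∈ O`) such that the residues of `1, z, …, z^(q-1)`
span the residue field of `W` over that of `O`.  Then the `q`-th power of every element of `W`
is congruent to an element of `φ O`.
-/

set_option autoImplicit false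
set_option linter.unusedSectionVars false
set_option linter.style.haveILetI false

noncomputable section

namespace Fermat.Agent.H83.SS2

open Fermat.Agent.H11.SS2

section Frob

variable {K L : Type} [Field K] [Field L] (φ : K →+* L)

theorem residue_eq_zero_iff_mem_nonunits (W : ValuationSubring L) (x : W) :
    IsLocalRing.residue W x = 0 ↔ (x : L) ∈ W.nonunits := by
  rw [IsLocalRing.residue_eq_zero_iff, ValuationSubring.coe_mem_nonunits_iff]

theorem frob_along {q : ℕ} (hq : q.Prime) {O : ValuationSubring K} {W : ValuationSubring L}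
    (hW : W.comap φ = O) (hqW : (q : L) ∈ W.nonunits) {z : L} (hz : z ∈ W) {b₀ : K}
    (hb₀ : b₀ ∈ O) (hzq : z ^ q - φ b₀ ∈ W.nonunits)
    (hspan : ∀ w ∈ W, ∃ c : Fin q → K, (∀ j, c j ∈ O) ∧
      w - ∑ j, φ (c j) * z ^ (j : ℕ) ∈ W.nonunits) :
    ∀ w ∈ W, ∃ b ∈ O, w ^ q - φ b ∈ W.nonunits := by
  classical
  intro w hw
  obtain ⟨c, hc, hcw⟩ := hspan w hw
  have hφ : ∀ x ∈ O, φ x ∈ W := fun x hx => (map_mem_iff_of_comap φ hW x).2 hx
  set r := IsLocalRing.residue W with hr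
  -- characteristic `q`
  have hq0 : ((q : ℕ) : IsLocalRing.ResidueField W) = 0 := by
    have h1 : r ((q : ℕ) : W) = 0 := by
      rw [hr, residue_eq_zero_iff_mem_nonunits]
      exact_mod_cast hqW
    rw [← h1, map_natCast]
  haveI : Fact q.Prime := ⟨hq⟩
  haveI : CharP (IsLocalRing.ResidueField W) q := (CharP.charP_iff_prime_eq_zero hq).2 hq0
  let b : K := ∑ j : Fin q, c j ^ q * b₀ ^ (j : ℕ)
  have hbO : b ∈ O := sum_mem fun j _ => O.mul_mem _ _ (O.pow_mem (hc j) _) (O.pow_mem hb₀ _)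
  refine ⟨b, hbO, ?_⟩
  have e1 : r ⟨w, hw⟩ = ∑ j : Fin q, r ⟨φ (c j), hφ _ (hc j)⟩ * r ⟨z, hz⟩ ^ (j : ℕ) := by
    rw [← sub_eq_zero]
    have : r ⟨w, hw⟩ - ∑ j : Fin q, r ⟨φ (c j), hφ _ (hc j)⟩ * r ⟨z, hz⟩ ^ (j : ℕ)
        = r (⟨w, hw⟩ - ∑ j : Fin q, ⟨φ (c j), hφ _ (hc j)⟩ * ⟨z, hz⟩ ^ (j : ℕ)) := by
      simp only [map_sub, map_sum, map_mul, map_pow]
    rw [this, hr, residue_eq_zero_iff_mem_nonunits]
    have h3 : ((⟨w, hw⟩ - ∑ j : Fin q, ⟨φ (c j), hφ _ (hc j)⟩ * ⟨z, hz⟩ ^ (j : ℕ) : W) : L)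
        = w - ∑ j, φ (c j) * z ^ (j : ℕ) := by
      push_cast
      rfl
    rw [h3]
    exact hcw
  have e2 : r ⟨z, hz⟩ ^ q = r ⟨φ b₀, hφ _ hb₀⟩ := by
    rw [← sub_eq_zero, ← map_pow, ← map_sub, hr, residue_eq_zero_iff_mem_nonunits]
    exact hzq
  have e3 : r ⟨w, hw⟩ ^ q = r ⟨φ b, hφ _ hbO⟩ := by
    rw [e1, sum_pow_char]
    have h4 : (⟨φ b, hφ _ hbO⟩ : W)
        = ∑ j : Fin q, ⟨φ (c j), hφ _ (hc j)⟩ ^ q * ⟨φ b₀, hφ _ hb₀⟩ ^ (j : ℕ) := by
      apply Subtype.ext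
      push_cast
      simp only [b, map_sum, map_mul, map_pow]
    rw [h4, map_sum]
    refine Finset.sum_congr rfl fun j _ => ?_
    rw [mul_pow, ← pow_mul, mul_comm (j : ℕ) q, pow_mul, e2, map_mul, map_pow, map_pow]
  have e4 : r (⟨w, hw⟩ ^ q - ⟨φ b, hφ _ hbO⟩) = 0 := by
    rw [map_sub, map_pow, e3, sub_self]
  rw [hr, residue_eq_zero_iff_mem_nonunits] at e4
  exact e4

end Frob

end Fermat.Agent.H83.SS2
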