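import Fermat.Agent.H83.SS2.Val3Table
import Fermat.Agent.H83.SS2.ModelAL2
import Fermat.Agent.H83.SS2.ModelVert
import Fermat.Agent.H1.SS2.DegBeta

/-!
# P-SS2 row 899 (SS2-C2 VAL3), ROUTE A ADAPTER (helper83):
`Emb3Data` (row SS2-C1, helper86) `⟹` the keystone `Val3Data` (helper11)

`val3Data_of_emb3` : for an odd prime `q ∤ M'`, `4 ∣ M'`, an unramified base `A₀`, the value table
`Emb3Data K₁ A₀ M' q Wq W V11 X Y Z` of the three vertical valuations `V20`, `V11`, `V02` of level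
`M' q²` implies `Val3Data α β V10 V01 V20 V11 V02 q Y₁ Z`.

Beyond the table, the proof uses
* the level-`M' q` package (helper7 `Vertical`, helper34 `KtValTable`);
* the degrees along `α`, `β` (helper1 `modelDeg3_of_isAL2`, helper64);
* `comap_beta_eq_or` (`V11` is vertical along `β`), `indep_beta`, `cong_beta`, `indep_alpha`,
  `cong_alpha` (this directory);
* the abstract adapter `val3Data_of_table` (EXHAUST).
-/

set_option autoImplicit false
set_option linter.unusedSectionVars false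
set_option linter.style.haveILetI false

noncomputable section

namespace Fermat.Agent.H83.SS2

open Polynomial ModularCurve
open Fermat.Agent.H22.KL Fermat.Agent.H7.SS Fermat.Agent.H7.SS2 Fermat.Agent.H66
open Fermat.Agent.H65 Fermat.Agent.H34.SS Fermat.Agent.H86.SS2 Fermat.Agent.H8.SS
open Fermat.Agent.H82.SS Fermat.Agent.H11.SS2

section Adapter

variable (M' q : ℕ) [NeZero M'] [NeZero q]
  (K₁ : Type) [Field K₁] [Algebra ℚ K₁] [FiniteDimensional ℚ K₁]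
  (A₀ : Type) [CommRing A₀] [IsDomain A₀] [IsDiscreteValuationRing A₀]
  [Algebra A₀ K₁] [IsFractionRing A₀ K₁]

theorem vUnit_of_isVUnit {E : Type} [Field E] {V : ValuationSubring E} {z : E}
    (h : IsVUnit V z) : VUnit V z := ⟨h.2.1, h.2.2⟩

theorem dkUnif_of_isUniformiser {E : Type} [Field E] {V : ValuationSubring E} {t : E}
    (h : IsUniformiser E V t) : DKUnif V t := ⟨h.1, h.2.1, h.2.2⟩

/-- **ROUTE A**: the value table `Emb3Data` implies the keystone `Val3Data`. -/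
theorem val3Data_of_emb3 (hq : q.Prime) (hq2 : q ≠ 2) (h4 : 4 ∣ M') (hqM : ¬ q ∣ M')
    (hqirr : Irreducible ((q : ℕ) : A₀))
    (Wq : ModelField K₁ (M' * q) ≃ₐ[K₁] ModelField K₁ (M' * q))
    (W : ModelField K₁ (M' * q * q) ≃ₐ[K₁] ModelField K₁ (M' * q * q))
    (V11 : ValuationSubring (ModelField K₁ (M' * q * q)))
    (X Y Z : ModelField K₁ (M' * q * q))
    (hZs : (Z : LaurentSeries K₁) = sZ K₁ q)
    (hE : Emb3Data K₁ A₀ M' q Wq W V11 X Y Z)
    (Y₁ : ModelField K₁ (M' * q)) (hY₁ : (Y₁ : LaurentSeries K₁) = sY1 K₁ q)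
    (hYα : heckeAlphaBar K₁ (M' * q) q Y₁ = Y) :
    Val3Data (heckeAlphaBar K₁ (M' * q) q).toRingHom (heckeBetaBar K₁ (M' * q) q).toRingHom
      (V10 K₁ A₀ M' q) (V01 K₁ A₀ M' q Wq) (V20 K₁ A₀ M' q) V11 (V02 K₁ A₀ M' q W) q Y₁ Z := by
  haveI : Fact q.Prime := ⟨hq⟩
  haveI : CharZero K₁ := algebraRat.charZero K₁
  haveI : CharZero (ModelField K₁ (M' * q)) :=
    charZero_of_injective_algebraMap (algebraMap K₁ (ModelField K₁ (M' * q))).injective
  letI : Algebra A₀ (ModelField K₁ (M' * q)) :=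
    ((algebraMap K₁ (ModelField K₁ (M' * q))).comp (algebraMap A₀ K₁)).toAlgebra
  haveI : IsScalarTower A₀ K₁ (ModelField K₁ (M' * q)) :=
    IsScalarTower.of_algebraMap_eq fun _ => rfl
  have hWq : IsAtkinLehnerModel K₁ M' q Wq := hE.al2.al
  have hjq : jq ∈ modularFunctionFieldFull (M' * q) := by
    have := jqd_mem_full (M' * q) (one_dvd (M' * q))
    rwa [qExpand_one_apply] at this
  set x : ModelField K₁ (M' * q) :=
    ⟨coeffEmb K₁ jq, coeffEmb_mem_laurentBaseChange K₁ hjq⟩ with hxdef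
  have hx : (x : LaurentSeries K₁) = coeffEmb K₁ jq := rfl
  have hdeg := Fermat.Agent.H1.SS2.modelDeg3_of_isAL2 M' q hq K₁ Wq W hE.al2
  have hYα' : (heckeAlphaBar K₁ (M' * q) q).toRingHom Y₁ = Y := hYα
  have hram : ((q : ℕ) : ModelField K₁ (M' * q * q)) / Z ^ (q - 1) ∈ V11 := by
    have := hE.q11.2.2
    rwa [inv_div] at this
  refine val3Data_of_table (heckeAlphaBar K₁ (M' * q) q).toRingHom
    (heckeBetaBar K₁ (M' * q) q).toRingHom (V10 K₁ A₀ M' q) (V01 K₁ A₀ M' q Wq)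
    (isPrincipalIdealRing_vInf' K₁ A₀ (M' * q) q hqirr)
    (isPrincipalIdealRing_vZero' K₁ A₀ (M' * q) Wq q hqirr)
    (vInf_ne_vZero M' q K₁ A₀ hq hqirr Wq hWq) q hq
    (dkUnif_of_isUniformiser (isUniformiser_vInf_natCast K₁ A₀ (M' * q) q hqirr))
    (dkUnif_of_isUniformiser (isUniformiser_vZero_natCast K₁ A₀ (M' * q) Wq q hqirr))
    hdeg.1.1 (le_of_eq hdeg.1.2) hdeg.2.1 (le_of_eq hdeg.2.2)
    (V20 K₁ A₀ M' q) V11 (V02 K₁ A₀ M' q W) Y₁ Z
    hE.comap20 hE.comap11 hE.comap02 hE.comapB20 hE.comapB02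
    (comap_beta_eq_or M' q K₁ A₀ x hx hq hqM hqirr Wq hWq V11 hE.comap11)
    hE.z11.1 hE.z11.2.1 hram (vUnit_of_isVUnit hE.z20) (vUnit_of_isVUnit hE.z02)
    ?_ ?_ ?_ ?_ ?_ ?_ ?_ ?_ ?_ ?_
  · rw [hYα']
    exact dkUnif_of_isUniformiser hE.y02
  · rw [hYα']
    exact vUnit_of_isVUnit hE.y11
  · rw [hYα']
    exact vUnit_of_isVUnit hE.y20
  · rw [hYα', add_comm]
    exact dkUnif_of_isUniformiser hE.s20
  · rw [hYα', add_comm]
    exact vUnit_of_isVUnit hE.s11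
  · rw [hYα', add_comm]
    exact vUnit_of_isVUnit hE.s02
  · exact indep_alpha K₁ A₀ M' q Wq W hE.al2 h4 hq Z hZs
  · exact indep_beta K₁ A₀ (M' * q) q hq Z hZs
  · exact cong_alpha K₁ A₀ M' q Wq W hE.al2 h4 hq2 hqirr.not_isUnit Y₁ hY₁ Z hZs
  · refine ⟨-Y₁, (V10 K₁ A₀ M' q).neg_mem _ (sY1_mem_gaussV K₁ A₀ q (M' * q) Y₁ hY₁), ?_⟩
    have := cong_beta K₁ A₀ (M' * q) q hq2 hqirr.not_isUnit Y₁ hY₁ Z hZs
    rw [map_neg, sub_neg_eq_add]
    exact this

end Adapter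

end Fermat.Agent.H83.SS2
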