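import Fermat.Agent.H83.SS2.Val3Frob
import Fermat.Agent.H83.SS2.AboveDVR

/-!
# P-SS2 row 899 (SS2-C2 VAL3), route A adapter, abstract part 3 (helper83)

`val3Data_of_table` : the keystone `Fermat.Agent.H11.SS2.Val3Data` from a VALUE TABLE
(route A: the output `Emb3Data` of row SS2-C1) and the two degree bounds.

Inputs (`F`, `E` fields of characteristic zero, `α β : F →+* E` of degree `≤ q`, `q` prime,
`O₁ ≠ O₂` discrete valuation subrings of `F` with uniformiser `q`):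

* `V₂₀, V₁₁, V₀₂` with `V₂₀ ∩ α F = V₁₁ ∩ α F = O₁`, `V₀₂ ∩ α F = O₂`, `V₂₀ ∩ β F = O₁`,
  `V₀₂ ∩ β F = O₂` and `V₁₁ ∩ β F ∈ {O₁, O₂}`;
* `Z ∈ 𝔪_{V₁₁}`, `Z ≠ 0`, `q / Z^(q-1) ∈ V₁₁`; `Z` a unit of `V₂₀` and of `V₀₂`;
* the residues of `1, Z, …, Z^(q-1)` are independent at `V₀₂` over `O₂` along `α` and at `V₂₀`
  over `O₁` along `β`;
* `Z^q ≡ α b₀` modulo `𝔪_{V₀₂}` (`b₀ ∈ O₂`), `Z^q ≡ β b₁` modulo `𝔪_{V₂₀}` (`b₁ ∈ O₁`);
* the table entries for `α Y₁` and `Z + α Y₁` (passed through).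
-/

set_option autoImplicit false
set_option linter.unusedSectionVars false
set_option linter.style.haveILetI false

noncomputable section

namespace Fermat.Agent.H83.SS2

open Fermat.Agent.H11.SS2

/-- A valuation subring above a discrete valuation subring along a finite embedding is a
principal ideal ring. -/
theorem isPrincipalIdealRing_along {K L : Type} [Field K] [Field L] [CharZero K] (φ : K →+* L)
    (hfin : @FiniteDimensional K L _ _ (@Algebra.toModule K L _ _ φ.toAlgebra))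
    {O : ValuationSubring K} (hO : IsPrincipalIdealRing O) {π : K} (hπ : DKUnif O π)
    {W : ValuationSubring L} (hW : W.comap φ = O) : IsPrincipalIdealRing W := by
  letI : Algebra K L := φ.toAlgebra
  haveI : FiniteDimensional K L := hfin
  haveI := hO
  exact isPrincipalIdealRing_of_above (K := K) (L := L) hπ.1 hπ.2.1 hW

theorem val3Data_of_table {F E : Type} [Field F] [Field E] [CharZero F] (α β : F →+* E)
    (O₁ O₂ : ValuationSubring F) (hO₁ : IsPrincipalIdealRing O₁) (hO₂ : IsPrincipalIdealRing O₂)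
    (hne : O₁ ≠ O₂) (q : ℕ) (hq : q.Prime)
    (hu₁ : DKUnif O₁ (q : F)) (hu₂ : DKUnif O₂ (q : F))
    (hfα : @FiniteDimensional F E _ _ (@Algebra.toModule F E _ _ α.toAlgebra))
    (hdα : @Module.finrank F E _ _ (@Algebra.toModule F E _ _ α.toAlgebra) ≤ q)
    (hfβ : @FiniteDimensional F E _ _ (@Algebra.toModule F E _ _ β.toAlgebra))
    (hdβ : @Module.finrank F E _ _ (@Algebra.toModule F E _ _ β.toAlgebra) ≤ q)
    (V₂₀ V₁₁ V₀₂ : ValuationSubring E) (Y₁ : F) (Z : E)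
    (c20α : V₂₀.comap α = O₁) (c11α : V₁₁.comap α = O₁) (c02α : V₀₂.comap α = O₂)
    (c20β : V₂₀.comap β = O₁) (c02β : V₀₂.comap β = O₂)
    (c11β : V₁₁.comap β = O₁ ∨ V₁₁.comap β = O₂)
    (hZ0 : Z ≠ 0) (hZ11 : Z ∈ V₁₁.nonunits) (hram : (q : E) / Z ^ (q - 1) ∈ V₁₁)
    (Z₂₀ : VUnit V₂₀ Z) (Z₀₂ : VUnit V₀₂ Z)
    (Y₀₂ : DKUnif V₀₂ (α Y₁)) (Y₁₁ : VUnit V₁₁ (α Y₁)) (Y₂₀ : VUnit V₂₀ (α Y₁))
    (X₂₀ : DKUnif V₂₀ (Z + α Y₁)) (X₁₁ : VUnit V₁₁ (Z + α Y₁)) (X₀₂ : VUnit V₀₂ (Z + α Y₁))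
    (hindα : ∀ c : Fin q → F, (∀ j, c j ∈ O₂) →
      (∑ j, α (c j) * Z ^ (j : ℕ)) ∈ V₀₂.nonunits → ∀ j, c j ∈ O₂.nonunits)
    (hindβ : ∀ c : Fin q → F, (∀ j, c j ∈ O₁) →
      (∑ j, β (c j) * Z ^ (j : ℕ)) ∈ V₂₀.nonunits → ∀ j, c j ∈ O₁.nonunits)
    (hcongα : ∃ b₀ ∈ O₂, Z ^ q - α b₀ ∈ V₀₂.nonunits)
    (hcongβ : ∃ b₁ ∈ O₁, Z ^ q - β b₁ ∈ V₂₀.nonunits) :
    Val3Data α β O₁ O₂ V₂₀ V₁₁ V₀₂ q Y₁ Z := by
  have hq1 : 1 + (q - 1) = q := by have := hq.two_le; omega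
  have hq1' : (q - 1) + 1 = q := by have := hq.two_le; omega
  have hqF0 : ((q : ℕ) : F) ≠ 0 := hu₁.1
  have hqE0 : ((q : ℕ) : E) ≠ 0 := by
    have := (map_ne_zero α).2 hqF0
    rwa [map_natCast] at this
  -- distinctness
  have ne₁ : V₂₀ ≠ V₁₁ := by
    intro h
    rw [← h] at hZ11
    exact (mem_nonunits_iff_inv V₂₀ hZ0).1 hZ11 Z₂₀.2
  have ne₂ : V₂₀ ≠ V₀₂ := by
    intro h
    rw [h, c02α] at c20α
    exact hne c20α.symm
  have ne₃ : V₁₁ ≠ V₀₂ := by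
    intro h
    rw [h, c02α] at c11α
    exact hne c11α.symm
  -- `q` at the three valuations
  have hq20 : ((q : ℕ) : E) ∈ V₂₀.nonunits := by
    have := (map_mem_nonunits_iff_of_comap α c20α _).2 hu₁.2.1
    rwa [map_natCast] at this
  have hq02 : ((q : ℕ) : E) ∈ V₀₂.nonunits := by
    have := (map_mem_nonunits_iff_of_comap α c02α _).2 hu₂.2.1
    rwa [map_natCast] at this
  -- along `α` above `O₁`
  obtain ⟨allα₁, -, unif₁₁, -, ram₁₁, res₂₀α, res₁₁α⟩ :=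
    split_along α hfα hO₁ hu₁ ne₁ c20α c11α 1 (q - 1) (t₁ := (q : E)) (t₂ := Z) hq20 hqE0
      (by rw [map_natCast, pow_one, div_self hqE0]; exact V₂₀.one_mem) hZ11 hZ0
      (by rw [map_natCast]; exact hram) (by rw [hq1]; exact hdα)
  rw [map_natCast] at ram₁₁
  -- along `α` above `O₂`
  obtain ⟨allα₂, unif₀₂, spanα⟩ := insep_along α hfα hO₂ hu₂ c02α q Z₀₂.1 hindα hdα
  rw [map_natCast] at unif₀₂
  -- along `β` above `O₁`
  obtain ⟨allβ₁, unif₂₀, spanβ⟩ := insep_along β hfβ hO₁ hu₁ c20β q Z₂₀.1 hindβ hdβ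
  rw [map_natCast] at unif₂₀
  -- `V₁₁` lies above `O₂` along `β`
  have comap₁₁β : V₁₁.comap β = O₂ := by
    rcases c11β with h | h
    · exact absurd (allβ₁ V₁₁ h).symm ne₁
    · exact h
  -- along `β` above `O₂`
  obtain ⟨allβ₂, -, -, -, -, res₁₁β, res₀₂β⟩ :=
    split_along β hfβ hO₂ hu₂ ne₃ comap₁₁β c02β (q - 1) 1 (t₁ := Z) (t₂ := (q : E)) hZ11 hZ0
      (by rw [map_natCast]; exact hram) hq02 hqE0
      (by rw [map_natCast, pow_one, div_self hqE0]; exact V₀₂.one_mem)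
      (by rw [hq1']; exact hdβ)
  obtain ⟨b₀, hb₀, hb₀c⟩ := hcongα
  obtain ⟨b₁, hb₁, hb₁c⟩ := hcongβ
  exact
    { ne₁ := ne₁
      ne₂ := ne₂
      ne₃ := ne₃
      pir₂₀ := isPrincipalIdealRing_along α hfα hO₁ hu₁ c20α
      pir₁₁ := isPrincipalIdealRing_along α hfα hO₁ hu₁ c11α
      pir₀₂ := isPrincipalIdealRing_along α hfα hO₂ hu₂ c02α
      comap₂₀α := c20α
      comap₁₁α := c11α
      comap₀₂α := c02α
      comap₂₀β := c20β
      comap₁₁β := comap₁₁β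
      comap₀₂β := c02β
      allα₁ := allα₁
      allα₂ := allα₂
      allβ₁ := allβ₁
      allβ₂ := allβ₂
      unif₂₀ := unif₂₀
      unif₀₂ := unif₀₂
      unif₁₁ := unif₁₁
      ram₁₁ := ram₁₁
      Z₂₀ := Z₂₀
      Z₀₂ := Z₀₂
      Y₀₂ := Y₀₂
      Y₁₁ := Y₁₁
      Y₂₀ := Y₂₀
      X₂₀ := X₂₀
      X₁₁ := X₁₁
      X₀₂ := X₀₂
      res₂₀α := res₂₀α
      res₁₁α := res₁₁α
      res₁₁β := res₁₁β
      res₀₂β := res₀₂β
      insep₀₂α := ⟨frob_along α hq c02α hq02 Z₀₂.1 hb₀ hb₀c spanα, spanα, hindα⟩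
      insep₂₀β := ⟨frob_along β hq c20β hq20 Z₂₀.1 hb₁ hb₁c spanβ, spanβ, hindβ⟩ }

end Fermat.Agent.H83.SS2
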