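import Fermat.Agent.H83.SS2.GaussTower
import Fermat.Agent.H83.SS2.OverRing
import Fermat.Agent.H83.SS2.AboveDVR

/-!
# P-SS2 row 899 (SS2-C2 VAL3): the vertical valuations (helper83)

If the Gauss closure `C_E(X)` is the intersection of finitely many pairwise distinct valuation
subrings `W i` of `E`, each lying above a discrete valuation subring `U (σ i)` of `F` in which `ϖ`
is a non-unit, then the `W i` are exactly the vertical valuations of the chart `X`
(`Fermat.Agent.H11.SS2.IsVertical`, stated here in unfolded form): the valuation subrings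
`V ≠ ⊤` of `E` containing `C_E(X)`; all of them are discrete valuation rings with `ϖ ∈ 𝔪_V`.
-/

set_option autoImplicit false
set_option linter.unusedSectionVars false
set_option linter.style.haveILetI false

noncomputable section

namespace Fermat.Agent.H83.SS2

open Fermat.Agent.H22.KL

section Vertical

variable {A : Type} [CommRing A]
  {F E : Type} [Field F] [Field E] [Algebra A F] [Algebra A E] [Algebra F E]
  [IsScalarTower A F E] [FiniteDimensional F E] [Algebra.IsSeparable F E]

theorem vertical_of_gauss {ϖ : A} {X : E}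
    {κ ι : Type*} [Fintype ι]
    (U : κ → ValuationSubring F) (hU : ∀ k, IsPrincipalIdealRing (U k))
    (hϖ0 : algebraMap A F ϖ ≠ 0) (hϖU : ∀ k, algebraMap A F ϖ ∈ (U k).nonunits)
    (W : ι → ValuationSubring E) (σ : ι → κ)
    (hW : Function.Injective W) (hWU : ∀ i, (W i).comap (algebraMap F E) = U (σ i))
    (hgaussE : ∀ z : E, z ∈ gaussClosure A E ϖ X ↔ ∀ i, z ∈ W i) :
    (∀ i, W i ≠ ⊤ ∧ IsPrincipalIdealRing (W i) ∧ (∀ z ∈ gaussClosure A E ϖ X, z ∈ W i) ∧
      algebraMap A E ϖ ∈ (W i).nonunits) ∧
    (∀ V : ValuationSubring E, V ≠ ⊤ → (∀ z ∈ gaussClosure A E ϖ X, z ∈ V) →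
      ∃ i, V = W i) := by
  have hdvr : ∀ i, IsDiscreteValuationRing (W i) := by
    intro i
    haveI := hU (σ i)
    exact isDiscreteValuationRing_of_above hϖ0 (hϖU (σ i)) (hWU i)
  refine ⟨?_, ?_⟩
  · intro i
    haveI := hdvr i
    refine ⟨Fermat.Agent.H37.SS2.ne_top_of_dvr (W i), inferInstance,
      fun z hz => (hgaussE z).1 hz i, ?_⟩
    rw [IsScalarTower.algebraMap_apply A F E]
    exact (algebraMap_mem_nonunits_iff_of_comap (hWU i) _).2 (hϖU (σ i))
  · intro V hVtop hV
    exact exists_eq_of_forall_mem W hW hdvr V hVtop (fun z hz => hV z ((hgaussE z).2 hz))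

end Vertical

end Fermat.Agent.H83.SS2
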